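import Mathlib

/-!
# TW-G / G-kill (helper86): killing the dual Selmer group with `r` primes — the linear algebra

Abstract form.  `D` is a finite-dimensional vector space (the dual Selmer group of the minimal
problem), `φ q : D → W q` are linear maps (restriction to the prime `q`, for `q` in an index type
`ι`), and `Adm ⊆ ι` is a set of admissible indices (Taylor–Wiles primes of level `n`) such that

* `Adm` is not contained in any finite set, and
* every `ψ ≠ 0` in `D` has an admissible `q` outside any given finite set with `φ q ψ ≠ 0`.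

Then for every `r ≥ dim D` there are `r` DISTINCT admissible indices `q_1, …, q_r` with
`⋂ ker φ_{q_i} = 0` (`gkill_exists`; `gkill_exists_finrank` is the case `r = dim D`).
If the common kernel dies before `r` indices are used, arbitrary further admissible indices are
added.
-/

set_option autoImplicit false

namespace Fermat.Agent.TW.G

open Module

variable {k D ι : Type*} [Field k] [AddCommGroup D] [Module k D]
  {W : ι → Type*} [∀ i, AddCommGroup (W i)] [∀ i, Module k (W i)]

/-- the finset form: for every `m` there is a set `T` of `m` admissible indices with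
`dim ⋂_{q ∈ T} ker φ_q ≤ dim D - m`. -/
lemma gkill_finset [FiniteDimensional k D] (φ : ∀ i, D →ₗ[k] W i) (Adm : Set ι)
    (hinf : ∀ F : Finset ι, ∃ q ∈ Adm, q ∉ F)
    (h : ∀ ψ : D, ψ ≠ 0 → ∀ F : Finset ι, ∃ q ∈ Adm, q ∉ F ∧ φ q ψ ≠ 0) (m : ℕ) :
    ∃ T : Finset ι, T.card = m ∧ (∀ q ∈ T, q ∈ Adm) ∧
      finrank k ↥(⨅ q ∈ T, LinearMap.ker (φ q)) ≤ finrank k D - m := by
  classical
  induction m with
  | zero =>
    refine ⟨∅, rfl, fun q hq => absurd hq (Finset.notMem_empty q), ?_⟩
    exact (Submodule.finrank_le _).trans (Nat.le_of_eq (Nat.sub_zero _).symm)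
  | succ m ih =>
    obtain ⟨T, hcard, hT, hrk⟩ := ih
    by_cases hK : (⨅ q ∈ T, LinearMap.ker (φ q)) = ⊥
    · obtain ⟨q, hq, hqT⟩ := hinf T
      refine ⟨insert q T, ?_, ?_, ?_⟩
      · rw [Finset.card_insert_of_notMem hqT, hcard]
      · intro q' hq'
        rcases Finset.mem_insert.1 hq' with rfl | h'
        · exact hq
        · exact hT _ h'
      · rw [Finset.iInf_insert, hK, inf_bot_eq, finrank_bot]
        exact Nat.zero_le _
    · obtain ⟨ψ, hψK, hψ0⟩ := (Submodule.ne_bot_iff _).1 hK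
      obtain ⟨q, hq, hqT, hφ⟩ := h ψ hψ0 T
      refine ⟨insert q T, ?_, ?_, ?_⟩
      · rw [Finset.card_insert_of_notMem hqT, hcard]
      · intro q' hq'
        rcases Finset.mem_insert.1 hq' with rfl | h'
        · exact hq
        · exact hT _ h'
      · rw [Finset.iInf_insert]
        have hlt : LinearMap.ker (φ q) ⊓ (⨅ q ∈ T, LinearMap.ker (φ q)) <
            ⨅ q ∈ T, LinearMap.ker (φ q) := by
          refine lt_of_le_of_ne inf_le_right ?_
          intro heq
          have : ψ ∈ LinearMap.ker (φ q) ⊓ (⨅ q ∈ T, LinearMap.ker (φ q)) := by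
            rw [heq]; exact hψK
          exact hφ (LinearMap.mem_ker.1 this.1)
        have := Submodule.finrank_lt_finrank_of_lt hlt
        omega

/-- **G-kill** (abstract): for every `r ≥ dim D` there are `r` distinct admissible indices whose
maps have trivial common kernel. -/
theorem gkill_exists [FiniteDimensional k D] (φ : ∀ i, D →ₗ[k] W i) (Adm : Set ι)
    (hinf : ∀ F : Finset ι, ∃ q ∈ Adm, q ∉ F)
    (h : ∀ ψ : D, ψ ≠ 0 → ∀ F : Finset ι, ∃ q ∈ Adm, q ∉ F ∧ φ q ψ ≠ 0)
    (r : ℕ) (hr : finrank k D ≤ r) :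
    ∃ qv : Fin r → ι, Function.Injective qv ∧ (∀ i, qv i ∈ Adm) ∧
      ∀ ψ : D, (∀ i, φ (qv i) ψ = 0) → ψ = 0 := by
  classical
  obtain ⟨T, hcard, hT, hrk⟩ := gkill_finset φ Adm hinf h r
  have hbot : (⨅ q ∈ T, LinearMap.ker (φ q)) = ⊥ := by
    apply Submodule.finrank_eq_zero.1
    omega
  let e := (T.equivFinOfCardEq hcard).symm
  refine ⟨fun i => (e i : ι), ?_, fun i => hT _ (e i).2, ?_⟩
  · intro i j hij
    exact e.injective (Subtype.ext hij)
  · intro ψ hψ
    have hmem : ψ ∈ ⨅ q ∈ T, LinearMap.ker (φ q) := by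
      rw [Submodule.mem_iInf]
      intro q
      rw [Submodule.mem_iInf]
      intro hq
      rw [LinearMap.mem_ker]
      have h1 : φ ((e (e.symm ⟨q, hq⟩) : ↥T) : ι) ψ = 0 := hψ (e.symm ⟨q, hq⟩)
      have h2 : ((e (e.symm ⟨q, hq⟩) : ↥T) : ι) = q := by
        rw [Equiv.apply_symm_apply]
      rw [h2] at h1
      exact h1
    rw [hbot] at hmem
    exact (Submodule.mem_bot k).1 hmem

/-- **G-kill** with exactly `dim D` indices. -/
theorem gkill_exists_finrank [FiniteDimensional k D] (φ : ∀ i, D →ₗ[k] W i) (Adm : Set ι)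
    (hinf : ∀ F : Finset ι, ∃ q ∈ Adm, q ∉ F)
    (h : ∀ ψ : D, ψ ≠ 0 → ∀ F : Finset ι, ∃ q ∈ Adm, q ∉ F ∧ φ q ψ ≠ 0) :
    ∃ qv : Fin (finrank k D) → ι, Function.Injective qv ∧ (∀ i, qv i ∈ Adm) ∧
      ∀ ψ : D, (∀ i, φ (qv i) ψ = 0) → ψ = 0 :=
  gkill_exists φ Adm hinf h _ le_rfl

/-- Monotonicity: a family containing a family with trivial common kernel has trivial common
kernel (extra primes never hurt). -/
theorem gkill_mono (φ : ∀ i, D →ₗ[k] W i) {r s : ℕ} (qv : Fin r → ι) (qv' : Fin s → ι)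
    (hsub : ∀ i, ∃ j, qv' j = qv i)
    (hker : ∀ ψ : D, (∀ i, φ (qv i) ψ = 0) → ψ = 0) :
    ∀ ψ : D, (∀ j, φ (qv' j) ψ = 0) → ψ = 0 := by
  intro ψ hψ
  refine hker ψ (fun i => ?_)
  obtain ⟨j, hj⟩ := hsub i
  rw [← hj]
  exact hψ j

end Fermat.Agent.TW.G
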