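/-
TW-G / W6 (helper54): `Core.StmtKillAll` from the final deliverable `Wire.StmtGKill` of TW-G.

`B = ad⁰ρ̄(1)`, `T₀ = primesOf Smin`, `X₀ = H¹_lev(G_{ℚ,T₀}, B)` (finite: `StmtLevFin`),
`r := dim X₀`.  `Wire.StmtGKill` gives a Taylor–Wiles family `qv` such that the only class of `X₀`
which is trivial at the Frobenius elements over all `q_i` is `0`.  A level class for the tower of
`Smin ∪ Q` which is locally trivial at all `q ∈ Q` is unramified at `Q`, hence lies in `X₀`
(`S.stmtTow`), and it is trivial at the Frobenius elements over `q_i` (`Wire.StmtWLoc`).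
-/
import Fermat.Agent.TW.G.Wire.Plan
import Fermat.Agent.TW.Core.Plan
import Fermat.Agent.TW.S.Tow
import Fermat.Agent.TW.S.SelCardAux

set_option autoImplicit false
set_option linter.unusedSectionVars false
set_option linter.unusedVariables false
set_option linter.style.haveILetI false

noncomputable section

namespace Fermat.Agent.TW.G

open CategoryTheory groupCohomology IsLocalRing Module
open Fermat.Agent.PT Fermat.Agent.PT.B Fermat.Agent.TW.S Fermat.Agent.TW.L Fermat.Agent.TW.F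
open ExtCitation

/-- Finiteness of the level cohomology of `G_{ℚ,T}` (`F.stmtGloFin` for the concrete datum). -/
def StmtLevFin : Prop :=
  ∀ (p : ℕ) [Fact p.Prime], p ≠ 2 → ∀ (T : Finset Nat.Primes), pPrime p ∈ T →
    ∀ (A : Rep.{0} (ZMod p) GQ) [FiniteDimensional (ZMod p) A], TrivOnLevel (towerS T) A →
      Finite ↥(levH1 (towerS T) A)

section

variable {𝒪 : Type} [CommRing 𝒪] [IsDomain 𝒪] [IsDiscreteValuationRing 𝒪]
  [IsAdicComplete (maximalIdeal 𝒪) 𝒪] [Finite (ResidueField 𝒪)]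
  (p : ℕ) [Fact p.Prime] [CharP (ResidueField 𝒪) p]
  (ρbar : ResidualGaloisRep (ResidueField 𝒪))

/-- `ad⁰ρ̄` is a finite set -/
theorem wkill_finite_ad0 : Finite (ad0Rep p ρbar).V := by
  haveI : Module.Finite (ResidueField 𝒪) ρbar.V := inferInstance
  haveI : Finite ρbar.V := Module.finite_of_finite (ResidueField 𝒪)
  haveI : Finite (Module.End (ResidueField 𝒪) ρbar.V) :=
    Finite.of_injective (fun f : Module.End (ResidueField 𝒪) ρbar.V => (f : ρbar.V → ρbar.V))
      DFunLike.coe_injective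
  exact Finite.of_injective _ (ad0Val_injective p ρbar)

theorem wkill_fd_ad0 : FiniteDimensional (ZMod p) (ad0Rep p ρbar).V :=
  haveI := wkill_finite_ad0 p ρbar
  Module.Finite.of_finite

theorem wkill_fd_adTw : FiniteDimensional (ZMod p) (Wire.adTw p ρbar).V :=
  haveI := wkill_fd_ad0 p ρbar
  inferInstanceAs (FiniteDimensional (ZMod p) (Module.Dual (ZMod p) (ad0Rep p ρbar).V))

theorem wkill_mem_of_eq_zero {R M : Type*} [Semiring R] [AddCommMonoid M] [Module R M]
    (N : Submodule R M) {z : M} (h : z = 0) : z ∈ N := h ▸ N.zero_mem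

/-- a class whose restriction to `G_{ℚ_q}` vanishes is trivial at the Frobenius elements -/
theorem wkill_trivFrob (hLoc : Wire.StmtWLoc) (q : ℕ) [Fact q.Prime]
    (c : cocycles₁ (Wire.adTw p ρbar))
    (h : (groupCohomology.map (localGaloisToGlobal q) (𝟙 (locRep q (Wire.adTw p ρbar))) 1).hom
      ((H1π (Wire.adTw p ρbar)).hom c) = 0) :
    Wire.TrivAtFrob p ρbar (c : GQ → (Wire.adTw p ρbar).V) q := by
  refine hLoc (ResidueField 𝒪) p ρbar q c ?_
  rw [sasm_locRes_H1π] at h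
  have h1 : H1π (locRep q (Wire.adTw p ρbar)) (sasmRes q (Wire.adTw p ρbar) c) = 0 := h
  rw [H1π_eq_zero_iff] at h1
  obtain ⟨m, hm⟩ := h1
  refine ⟨m, fun x => ?_⟩
  have := congrFun hm x
  exact this.symm

/-- **W6.** `Core.StmtKillAll` from the final deliverable of TW-G. -/
theorem stmtKillAll_of (hK : Wire.StmtGKill) (hLoc : Wire.StmtWLoc) (hAd : Core.StmtAdLevel)
    (hFin : StmtLevFin) (hTow : StmtTow) : Core.StmtKillAll 𝒪 := by
  intro p _ _ ρbar S Smin hyp
  haveI := wkill_fd_adTw p ρbar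
  have hpT₀ : pPrime p ∈ primesOf Smin := Finset.mem_subtype.2 hyp.hpSmin
  have hunr₀ : ∀ q : Nat.Primes, q ∉ primesOf Smin → ρbar.IsUnramifiedAt (q : ℕ) := by
    intro q hq
    have hq' : (q : ℕ) ∉ Smin := fun h => hq (Finset.mem_subtype.2 h)
    have hqp : (q : ℕ) ≠ p := fun h => hq' (h ▸ hyp.hpSmin)
    by_contra hram
    exact hq' ((hyp.hmin q q.2 hqp).2 hram)
  have hlev : TrivOnLevel (towerS (primesOf Smin)) (Wire.adTw p ρbar) :=
    (hAd p (ResidueField 𝒪) ρbar (primesOf Smin) hpT₀ hunr₀).2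
  haveI hfin : Finite ↥(levH1 (towerS (primesOf Smin)) (Wire.adTw p ρbar)) :=
    hFin p hyp.hp2 (primesOf Smin) hpT₀ (Wire.adTw p ρbar) hlev
  have hmf : Module.Finite (ZMod p) ↥(levH1 (towerS (primesOf Smin)) (Wire.adTw p ρbar)) :=
    Module.Finite.of_finite
  have hcoc : ∀ y ∈ levH1 (towerS (primesOf Smin)) (Wire.adTw p ρbar),
      ∃ c : cocycles₁ (Wire.adTw p ρbar), (H1π (Wire.adTw p ρbar)).hom c = y ∧
        Wire.IsLevCoc p ρbar (c : GQ → (Wire.adTw p ρbar).V) := by
    intro y hy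
    obtain ⟨c, ⟨U, ⟨F, hF, rfl⟩, hU⟩, hcy⟩ := (mem_levH1_iff _ _ y).1 hy
    exact ⟨c, hcy, c.2, F, hF.1, hU⟩
  refine ⟨finrank (ZMod p) ↥(levH1 (towerS (primesOf Smin)) (Wire.adTw p ρbar)), fun n => ?_⟩
  obtain ⟨qv, hTW, hkill⟩ := hK 𝒪 p ρbar S Smin hyp
    (levH1 (towerS (primesOf Smin)) (Wire.adTw p ρbar)) hmf hcoc _ le_rfl n
  refine ⟨qv, hTW, fun x hx hres => ?_⟩
  -- `x` is a level class for the small tower
  have hsub : primesOf Smin ⊆ primesOf (Smin ∪ Finset.univ.image qv) := by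
    intro q hq
    exact Finset.mem_subtype.2 (Finset.mem_union_left _ (Finset.mem_subtype.1 hq))
  have hx₀ : x ∈ levH1 (towerS (primesOf Smin)) (Wire.adTw p ρbar) := by
    refine hTow p (primesOf Smin) (primesOf (Smin ∪ Finset.univ.image qv)) hsub
      (Wire.adTw p ρbar) hlev x hx ?_
    rintro ⟨q, hqprime⟩ hqT hqT₀
    have h1 : q ∈ Smin ∪ Finset.univ.image qv := Finset.mem_subtype.1 hqT
    have h2 : q ∉ Smin := fun h => hqT₀ (Finset.mem_subtype.2 h)
    rcases Finset.mem_union.1 h1 with h | h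
    · exact absurd h h2
    · obtain ⟨i, -, rfl⟩ := Finset.mem_image.1 h
      exact wkill_mem_of_eq_zero _ (hres i hqprime)
  refine hkill x hx₀ fun i => ?_
  obtain ⟨c, -, hcx⟩ := (mem_levH1_iff _ _ x).1 hx
  haveI : Fact (qv i).Prime := ⟨(hTW.2.1 i).1⟩
  exact ⟨c, hcx, wkill_trivFrob p ρbar hLoc (qv i) c (by rw [hcx]; exact hres i (hTW.2.1 i).1)⟩

end

end Fermat.Agent.TW.G

end
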