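/-
TW-G / W6 (helper54): finiteness of the level cohomology of `G_{ℚ,T}`, unconditional
(`F.stmtGloFin` for the concrete datum of PT-B, whose five hard axioms are theorems).
-/
import Fermat.Agent.TW.G.KillAll
import Fermat.Agent.TW.F.GloFin
import Fermat.Agent.PT.B.FinalWire
import Fermat.Agent.PT.G3.GBSDShapiro

set_option autoImplicit false

namespace Fermat.Agent.TW.G

open Fermat.Agent.PT Fermat.Agent.PT.B ExtCitation

/-- the five hard axioms of the concrete datum are theorems -/
theorem wkill_stmtGB : StmtGB := stmtGB_of_sdShapiro Fermat.Agent.PT.G3.stmtSDShapiro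

/-- **Finiteness of `H¹_lev(G_{ℚ,T}, A)`**, unconditional. -/
theorem stmtLevFin : StmtLevFin := by
  intro p _ hp2 T hpT A _ hA
  exact Fermat.Agent.TW.F.stmtGloFin p GQ ↥T (GlocS T)
    (concreteDatum p hp2 T hpT (stmtCmGlob_of_GA Fermat.Agent.PT.G3.stmtGA_B) stmtCmLoc
      stmtH90Loc (stmtExistC_of_GA Fermat.Agent.PT.G3.stmtGA_B Fermat.Agent.PT.X.stmtExistTL)
      (stmtSurvC_of_GB wkill_stmtGB)) A hA

end Fermat.Agent.TW.G
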