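import Mathlib

/-!
# TW-G / G-sel (helper26, sub-captain): the group theory behind Taylor–Wiles primes — INTERFACE

Abstract finite group theory, Mathlib only.  `Γ` is any group (later `G_ℚ`), `k` a finite field of
odd characteristic `p`, `ρ : Γ →* GL₂(k)`, `N ⊴ Γ` with `Γ/N` cyclic (later: the stabiliser of
`μ_{p^{n+1}}`).  The module is `M = ad⁰(1) = ad⁰ ⊗ det ρ`, realised as the trace-zero `2 × 2`
matrices with the TWISTED adjoint action `g ⋆ m = g m adj(g) = det(g)·g m g⁻¹` (`≅ Sym²`).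

GOAL `StmtGSel`: a cocycle `ψ : Γ → M` that is not a coboundary is not a coboundary at some
`σ ∈ N` with `ρ(σ)` of distinct eigenvalues.   Proofs and piece table: `NOTES/TW-G.md`.
-/

set_option autoImplicit false

namespace Fermat.Agent.TW.G.Sel

open Matrix Polynomial

/-- `2 × 2` matrices over `k`. -/
abbrev M2 (k : Type) [Field k] : Type := Matrix (Fin 2) (Fin 2) k

variable {k : Type} [Field k] {Γ : Type} [Group Γ]

/-- The twisted adjoint action `g ⋆ m = g m adj(g)` (`= det(g)·g m g⁻¹` for invertible `g`). -/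
def act (g m : M2 k) : M2 k := g * m * g.adjugate

/-- standard basis of the trace-zero matrices -/
def eE : M2 k := !![0, 1; 0, 0]
/-- standard basis of the trace-zero matrices -/
def eH : M2 k := !![1, 0; 0, -1]
/-- standard basis of the trace-zero matrices -/
def eF : M2 k := !![0, 0; 1, 0]
/-- the upper unipotent matrix `u_x` -/
def uU (x : k) : M2 k := !![1, x; 0, 1]

/-- all eigenvalues in `k` -/
def IsSplit (g : M2 k) : Prop := ∃ α β : k, g.charpoly = (X - C α) * (X - C β)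

/-- two distinct eigenvalues in `k` -/
def HasDistinctEig (g : M2 k) : Prop :=
  ∃ α β : k, α ≠ β ∧ g.charpoly = (X - C α) * (X - C β)

/-! ## Level `Γ` -/

/-- `ψ` is a 1-cocycle of `Γ` with values in `ad⁰(1)`. -/
structure IsCoc (ρ : Γ →* GL (Fin 2) k) (ψ : Γ → M2 k) : Prop where
  trace_zero : ∀ σ, (ψ σ).trace = 0
  map_mul : ∀ σ τ, ψ (σ * τ) = ψ σ + act (ρ σ).1 (ψ τ)

/-- `ψ` is a coboundary. -/
def IsCob (ρ : Γ →* GL (Fin 2) k) (ψ : Γ → M2 k) : Prop :=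
  ∃ m : M2 k, m.trace = 0 ∧ ∀ σ, ψ σ = act (ρ σ).1 m - m

/-- `ψ(σ) ∈ (σ − 1)·ad⁰(1)`: the restriction of `ψ` to the (pro)cyclic group of `σ` is trivial. -/
def IsCobAt (ρ : Γ →* GL (Fin 2) k) (ψ : Γ → M2 k) (σ : Γ) : Prop :=
  ∃ m : M2 k, m.trace = 0 ∧ ψ σ = act (ρ σ).1 m - m

/-- `H` has no common eigenvector over the algebraic closure: `ρ|_H` is absolutely irreducible. -/
def NoEigen (ρ : Γ →* GL (Fin 2) k) (H : Subgroup Γ) : Prop :=
  ∀ v : Fin 2 → AlgebraicClosure k, v ≠ 0 →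
    ¬ ∀ σ ∈ H, ∃ c : AlgebraicClosure k,
      ((ρ σ).1.map (algebraMap k (AlgebraicClosure k))) *ᵥ v = c • v

/-- The standing hypotheses (those of S56, in coordinates). -/
structure Hyp (p : ℕ) (ρ : Γ →* GL (Fin 2) k) (N : Subgroup Γ) : Prop where
  odd : p ≠ 2
  /-- `det ρ` takes values in the prime field … -/
  det_int : ∀ σ, ∃ a : ℤ, (ρ σ).1.det = (a : k)
  /-- … and all nonzero values (`det ρ` = mod `p` cyclotomic character, surjective) -/
  det_surj : ∀ a : ℤ, (a : k) ≠ 0 → ∃ σ, (ρ σ).1.det = (a : k)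
  det_N : ∀ σ ∈ N, (ρ σ).1.det = 1
  split : ∀ σ, IsSplit (ρ σ).1
  /-- absolute irreducibility on `Γ` and on every subgroup of index 2 -/
  irr : ∀ H : Subgroup Γ, (H = ⊤ ∨ H.index = 2) → NoEigen ρ H
  normal : N.Normal
  /-- `Γ/N` is cyclic, in elementary form -/
  cyc : ∃ γ : Γ, ∀ σ : Γ, ∃ n : ℤ, γ ^ n * σ ∈ N

/-- GOAL of TW-G/G-sel. -/
def StmtGSel : Prop :=
  ∀ (p : ℕ) [Fact p.Prime] (k : Type) [Field k] [Finite k] [CharP k p] (Γ : Type) [Group Γ]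
    (ρ : Γ →* GL (Fin 2) k) (N : Subgroup Γ), Hyp p ρ N →
    ∀ ψ : Γ → M2 k, IsCoc ρ ψ → ¬ IsCob ρ ψ →
      ∃ σ ∈ N, HasDistinctEig (ρ σ).1 ∧ ¬ IsCobAt ρ ψ σ

/-- (P1, G-adirr) `ad⁰` has no proper nonzero `Γ`-stable subspace. -/
def StmtAdIrr : Prop :=
  ∀ (p : ℕ) [Fact p.Prime] (k : Type) [Field k] [Finite k] [CharP k p] (Γ : Type) [Group Γ]
    (ρ : Γ →* GL (Fin 2) k) (N : Subgroup Γ), Hyp p ρ N →
    ∀ W : Submodule k (M2 k), (∀ w ∈ W, w.trace = 0) →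
      (∀ σ : Γ, ∀ w ∈ W, act (ρ σ).1 w ∈ W) → W = ⊥ ∨ ∀ m : M2 k, m.trace = 0 → m ∈ W

/-- (P2, G-dist) some `σ ∈ N` has distinct eigenvalues. -/
def StmtDist : Prop :=
  ∀ (p : ℕ) [Fact p.Prime] (k : Type) [Field k] [Finite k] [CharP k p] (Γ : Type) [Group Γ]
    (ρ : Γ →* GL (Fin 2) k) (N : Subgroup Γ), Hyp p ρ N →
    ∃ σ ∈ N, HasDistinctEig (ρ σ).1

/-- (P3, G-find) a cocycle that does not vanish on `Z = N ∩ ker ρ` is nontrivial at some `σ ∈ N`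
with distinct eigenvalues. -/
def StmtFind : Prop :=
  ∀ (p : ℕ) [Fact p.Prime] (k : Type) [Field k] [Finite k] [CharP k p] (Γ : Type) [Group Γ]
    (ρ : Γ →* GL (Fin 2) k) (N : Subgroup Γ), Hyp p ρ N →
    ∀ ψ : Γ → M2 k, IsCoc ρ ψ → (∃ z ∈ N, ρ z = 1 ∧ ψ z ≠ 0) →
      ∃ σ ∈ N, HasDistinctEig (ρ σ).1 ∧ ¬ IsCobAt ρ ψ σ

/-! ## Level `G = ρ(Γ) ⊆ GL₂(k)`: vanishing of `H¹(G, ad⁰(1))` -/

/-- cocycle condition on a subgroup `G` of `GL₂(k)`, for a function defined on all of `GL₂(k)`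
(values outside `G` are irrelevant) -/
def IsCocOn (G : Subgroup (GL (Fin 2) k)) (ψ : GL (Fin 2) k → M2 k) : Prop :=
  (∀ g ∈ G, (ψ g).trace = 0) ∧ ∀ g ∈ G, ∀ h ∈ G, ψ (g * h) = ψ g + act g.1 (ψ h)

/-- coboundary on `G` -/
def IsCobOn (G : Subgroup (GL (Fin 2) k)) (ψ : GL (Fin 2) k → M2 k) : Prop :=
  ∃ m : M2 k, m.trace = 0 ∧ ∀ g ∈ G, ψ g = act g.1 m - m

/-- no common eigenvector over the algebraic closure -/
def NoEigenOn (G : Subgroup (GL (Fin 2) k)) : Prop :=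
  ∀ v : Fin 2 → AlgebraicClosure k, v ≠ 0 →
    ¬ ∀ g ∈ G, ∃ c : AlgebraicClosure k,
      (g.1.map (algebraMap k (AlgebraicClosure k))) *ᵥ v = c • v

/-- hypotheses on the finite group `G = ρ(Γ)` -/
structure FinHyp (p : ℕ) (G : Subgroup (GL (Fin 2) k)) : Prop where
  odd : p ≠ 2
  det_int : ∀ g ∈ G, ∃ a : ℤ, g.1.det = (a : k)
  det_surj : ∀ a : ℤ, (a : k) ≠ 0 → ∃ g ∈ G, g.1.det = (a : k)
  split : ∀ g ∈ G, IsSplit g.1
  irr : NoEigenOn G

/-- (G-fin) `H¹(G, ad⁰(1)) = 0`. -/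
def StmtFin : Prop :=
  ∀ (p : ℕ) [Fact p.Prime] (k : Type) [Field k] [Finite k] [CharP k p]
    (G : Subgroup (GL (Fin 2) k)), FinHyp p G →
    ∀ ψ : GL (Fin 2) k → M2 k, IsCocOn G ψ → IsCobOn G ψ

/-- (G-fin, normalised) the same when `u_1 ∈ G` (a Sylow `p`-subgroup is upper unipotent). -/
def StmtFinNorm : Prop :=
  ∀ (p : ℕ) [Fact p.Prime] (k : Type) [Field k] [Finite k] [CharP k p]
    (G : Subgroup (GL (Fin 2) k)), FinHyp p G → (∃ g ∈ G, g.1 = uU 1) →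
    ∀ ψ : GL (Fin 2) k → M2 k, IsCocOn G ψ → IsCobOn G ψ

/-- the parameters of the upper unipotent elements of `G` -/
def Xset (G : Subgroup (GL (Fin 2) k)) : Set k := {x | ∃ g ∈ G, g.1 = uU x}

/-- the squares of the upper-left entries of the upper triangular elements of determinant 1 -/
def Asq (G : Subgroup (GL (Fin 2) k)) : Set k :=
  {s | ∃ g ∈ G, g.1 1 0 = 0 ∧ g.1.det = 1 ∧ s = g.1 0 0 ^ 2}

/-- (P6, G-syl) restriction to a subgroup of index prime to `p` is injective on `H¹`. -/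
def StmtSyl : Prop :=
  ∀ (p : ℕ) [Fact p.Prime] (k : Type) [Field k] [Finite k] [CharP k p]
    (G H : Subgroup (GL (Fin 2) k)), H ≤ G → ¬ p ∣ (H.subgroupOf G).index →
    ∀ ψ : GL (Fin 2) k → M2 k, IsCocOn G ψ → IsCobOn H ψ → IsCobOn G ψ

/-- (P6', G-idx) the upper unipotent elements of `G` form a subgroup of index prime to `p`, as
soon as there is a nontrivial one. -/
def StmtIdx : Prop :=
  ∀ (p : ℕ) [Fact p.Prime] (k : Type) [Field k] [Finite k] [CharP k p]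
    (G : Subgroup (GL (Fin 2) k)), (∃ g ∈ G, g.1 = uU 1) →
    ∃ U : Subgroup (GL (Fin 2) k), U ≤ G ∧ (∀ g, g ∈ U ↔ g ∈ G ∧ ∃ x, g.1 = uU x) ∧
      ¬ p ∣ (U.subgroupOf G).index

/-- (P5, G-norm) conjugation invariance and normalisation. -/
def StmtNorm : Prop := StmtSyl → StmtFinNorm → StmtFin

/-- (P7a, G-borel-1) normal form of a cocycle on the upper unipotent subgroup. -/
def StmtBorelU : Prop :=
  ∀ (p : ℕ) [Fact p.Prime] (k : Type) [Field k] [Finite k] [CharP k p], p ≠ 2 →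
    ∀ (G : Subgroup (GL (Fin 2) k)), (∃ g ∈ G, g.1 = uU 1) →
    ∀ ψ : GL (Fin 2) k → M2 k, IsCocOn G ψ →
    ∃ (m : M2 k) (c : k) (α : k → k), m.trace = 0 ∧ (c = 0 ∨ (3 : k) ≠ 0) ∧
      (∀ x ∈ Xset G, ∀ y ∈ Xset G, α (x + y) = α x + α y) ∧
      ∀ g ∈ G, ∀ x : k, g.1 = uU x →
        ψ g = act g.1 m - m + c • (x • eF + (x ^ 2 / 2) • eH - (x ^ 3 / 3) • eE) + α x • eE

/-- (P7b, G-borel-2) invariance of the class on `U` under the upper triangular elements. -/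
def StmtBorelT : Prop :=
  ∀ (p : ℕ) [Fact p.Prime] (k : Type) [Field k] [Finite k] [CharP k p], p ≠ 2 →
    ∀ (G : Subgroup (GL (Fin 2) k)), (∃ g ∈ G, g.1 = uU 1) →
    ∀ ψ : GL (Fin 2) k → M2 k, IsCocOn G ψ → ∀ (c : k) (α : k → k),
      (∀ g ∈ G, ∀ x : k, g.1 = uU x →
        ψ g = c • (x • eF + (x ^ 2 / 2) • eH - (x ^ 3 / 3) • eE) + α x • eE) →
      ∀ t ∈ G, t.1 1 0 = 0 →
        c * (t.1 0 0 - t.1 1 1 ^ 3) = 0 ∧
        (c = 0 → ∃ l : k, ∀ x ∈ Xset G,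
          α (t.1 0 0 / t.1 1 1 * x) = t.1 0 0 ^ 2 * α x + l * x)

/-- (P8, G-frattini) every determinant of `G` is the determinant of an upper triangular element. -/
def StmtFrattini : Prop :=
  ∀ (p : ℕ) [Fact p.Prime] (k : Type) [Field k] [Finite k] [CharP k p]
    (G : Subgroup (GL (Fin 2) k)), (∃ g ∈ G, g.1 = uU 1) →
    ∀ g ∈ G, ∃ t ∈ G, t.1 1 0 = 0 ∧ t.1.det = g.1.det

/-- (P9, G-dickson) Dickson, counting form: if `G ⊆ GL₂(k)` (all elements split over `k`) is not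
upper triangular and has `q` upper unipotent elements, its upper triangular elements of
determinant 1 have at least `(q − 1)/2` different squares `a²` of upper-left entries. -/
def StmtDickson : Prop :=
  ∀ (p : ℕ) [Fact p.Prime] (k : Type) [Field k] [Finite k] [CharP k p], p ≠ 2 →
    ∀ (G : Subgroup (GL (Fin 2) k)), (∀ g ∈ G, IsSplit g.1) → (∃ g ∈ G, g.1 1 0 ≠ 0) →
      Nat.card (Xset G) ≤ 2 * Nat.card (Asq G) + 1

/-- (P10, G-concl) the normalised vanishing theorem from the pieces. -/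
def StmtConcl : Prop :=
  StmtSyl → StmtIdx → StmtBorelU → StmtBorelT → StmtFrattini → StmtDickson → StmtFinNorm

/-- (P4, G-asm) assembly on the level of `Γ`. -/
def StmtAsm : Prop := StmtAdIrr → StmtFind → StmtFin → StmtGSel

end Fermat.Agent.TW.G.Sel
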