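import Mathlib
import Fermat.Agent.TW.G.Plan
import Fermat.Agent.TW.F.GW

/-!
# TW-G / G-sel, pieces P1 (G-adirr), P2 (G-dist), P3 (G-find)  (helper86)

Targets of `Fermat/Agent/TW/G/Plan.lean`: `stmtAdIrr : StmtAdIrr`, `stmtDist : StmtDist`,
`stmtFind : StmtFind`.  Elementary `2 × 2` matrix algebra, no classification of subgroups.

* `gsel_eigen`: a nonzero `2 × 2` matrix `n` of determinant `0` has a vector `v ≠ 0` (a column)
  which is an eigenvector of every `g` with `g n = c • n g`.
* `gsel_line_false`: under `Hyp` there is no `Γ`-stable line in the trace-zero matrices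
  (`det w = 0`: `n = w`; `det w ≠ 0`: `n = w + s`, `s² = -det w`, and the subgroup of index `≤ 2`
  commuting with `w`).
* P1: dimension count with the trace form (`gw_finrank_perpL`).
* P2: if `tr² = 4` on all of `N`, the trace-zero parts `2g - tr g` of `ρ(N)` span a stable,
  totally isotropic subspace: it is `0` by P1, `ρ(N)` is scalar and `ρ(Γ)` has an eigenvector.
* P3: the span of `ψ(N ∩ ker ρ)` is stable, hence everything (P1); a regular `σ₀ ∈ N` (P2).
-/

set_option autoImplicit false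

namespace Fermat.Agent.TW.G.Sel

open Matrix Polynomial Module

variable {k : Type} [Field k]

/-! ### `2 × 2` matrix identities -/

/-- Cayley–Hamilton in size 2 -/
lemma gsel_ch (g : M2 k) : g * g = g.trace • g - g.det • (1 : M2 k) := by
  ext i j
  fin_cases i <;> fin_cases j <;>
    simp [Matrix.mul_apply, Fin.sum_univ_two, Matrix.trace_fin_two, Matrix.det_fin_two] <;> ring

/-- the trace form is nondegenerate -/
lemma gsel_eq_zero_of_trace (y : M2 k) (h : ∀ x : M2 k, (x * y).trace = 0) : y = 0 := by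
  ext i j
  have := h (Matrix.single j i 1)
  rw [Matrix.trace_single_mul] at this
  simpa using this

/-- `n d n = tr(n d) n - det(n) adj(d)` -/
lemma gsel_sandwich (n d : M2 k) :
    n * d * n = (n * d).trace • n - n.det • d.adjugate := by
  ext i j
  fin_cases i <;> fin_cases j <;>
    simp [Matrix.mul_apply, Fin.sum_univ_two, Matrix.trace_fin_two, Matrix.det_fin_two,
      Matrix.adjugate_fin_two] <;> ring

lemma gsel_act_one (m : M2 k) : act (1 : M2 k) m = m := by
  simp [act]

lemma gsel_act_mul (g h m : M2 k) : act (g * h) m = act g (act h m) := by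
  simp only [act, Matrix.adjugate_mul_distrib, mul_assoc]

lemma gsel_act_add (g m m' : M2 k) : act g (m + m') = act g m + act g m' := by
  simp only [act, mul_add, add_mul]

lemma gsel_act_smul (g : M2 k) (c : k) (m : M2 k) : act g (c • m) = c • act g m := by
  simp only [act, Matrix.mul_smul, Matrix.smul_mul]

lemma gsel_act_sub (g m m' : M2 k) : act g (m - m') = act g m - act g m' := by
  simp only [act, mul_sub, sub_mul]

/-- `(g ⋆ m) g = det g • g m` -/
lemma gsel_act_mul_self (g m : M2 k) : act g m * g = g.det • (g * m) := by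
  rw [act, mul_assoc, Matrix.adjugate_mul, Matrix.mul_smul, mul_one]

lemma gsel_act_trace (g m : M2 k) : (act g m).trace = g.det * m.trace := by
  rw [act, Matrix.trace_mul_comm, ← mul_assoc, Matrix.adjugate_mul, Matrix.smul_mul, one_mul,
    Matrix.trace_smul, smul_eq_mul]

lemma gsel_act_trace_mul (g x y : M2 k) :
    (act g x * act g y).trace = g.det ^ 2 * (x * y).trace := by
  have h : act g x * act g y = g.det • act g (x * y) := by
    simp only [act]
    calc g * x * g.adjugate * (g * y * g.adjugate)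
        = g * x * (g.adjugate * g) * y * g.adjugate := by simp only [mul_assoc]
      _ = g.det • (g * (x * y) * g.adjugate) := by
          rw [Matrix.adjugate_mul]
          simp only [Matrix.mul_smul, Matrix.smul_mul, mul_one, mul_assoc]
  rw [h, Matrix.trace_smul, gsel_act_trace, smul_eq_mul]
  ring

/-! ### The eigenvector lemma -/

/-- a `2 × 2` matrix of determinant `0` has proportional rows and columns -/
lemma gsel_rank_one {K : Type} [Field K] (n : M2 K) (hdet : n.det = 0) (y : Fin 2 → K)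
    (a i j : Fin 2) : (n *ᵥ y) a * n i j = (n *ᵥ y) i * n a j := by
  rw [Matrix.det_fin_two] at hdet
  fin_cases a <;> fin_cases i <;> fin_cases j <;>
    simp [Matrix.mulVec, dotProduct, Fin.sum_univ_two] <;>
    first
      | ring1
      | linear_combination (y 1) * hdet
      | linear_combination (-(y 1)) * hdet
      | linear_combination (y 0) * hdet
      | linear_combination (-(y 0)) * hdet

/-- A nonzero `2 × 2` matrix `n` of determinant `0` has rank one: a nonzero column `v` of `n`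
is an eigenvector of every `g` that normalises `n` up to a scalar. -/
lemma gsel_eigen {K : Type} [Field K] (n : M2 K) (hn : n ≠ 0) (hdet : n.det = 0) :
    ∃ v : Fin 2 → K, v ≠ 0 ∧
      ∀ g : M2 K, (∃ c : K, g * n = c • (n * g)) → ∃ c : K, g *ᵥ v = c • v := by
  have hij : ∃ i j, n i j ≠ 0 := by
    by_contra hcon
    push Not at hcon
    exact hn (by ext i j; simpa using hcon i j)
  obtain ⟨i, j, hnij⟩ := hij
  have hcol : ∀ a, (n *ᵥ Pi.single j 1) a = n a j := by
    intro a
    simp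
  refine ⟨n *ᵥ Pi.single j 1, ?_, ?_⟩
  · intro h0
    apply hnij
    rw [← hcol i, h0]
    rfl
  · rintro g ⟨c, hc⟩
    refine ⟨c * ((n *ᵥ (g *ᵥ Pi.single j 1)) i / n i j), ?_⟩
    rw [Matrix.mulVec_mulVec, hc, Matrix.smul_mulVec, ← Matrix.mulVec_mulVec]
    ext a
    simp only [Pi.smul_apply, smul_eq_mul, hcol]
    have h := gsel_rank_one n hdet (g *ᵥ Pi.single j 1) a i j
    field_simp
    linear_combination c * h

/-! ### No stable line in `ad⁰` -/

lemma gsel_two_ne_zero (p : ℕ) [Fact p.Prime] [CharP k p] (hodd : p ≠ 2) : (2 : k) ≠ 0 := by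
  intro h
  have h2 : ((2 : ℕ) : k) = 0 := by exact_mod_cast h
  rw [CharP.cast_eq_zero_iff k p] at h2
  exact hodd ((Nat.prime_dvd_prime_iff_eq Fact.out Nat.prime_two).1 h2)

lemma gsel_det_ne_zero (g : GL (Fin 2) k) : g.1.det ≠ 0 :=
  (Matrix.isUnits_det_units g).ne_zero

lemma gsel_inv_mul (g : GL (Fin 2) k) : (g⁻¹).1 * g.1 = 1 := by
  rw [← Units.val_mul, inv_mul_cancel, Units.val_one]

lemma gsel_mul_inv (g : GL (Fin 2) k) : g.1 * (g⁻¹).1 = 1 := by
  rw [← Units.val_mul, mul_inv_cancel, Units.val_one]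

/-- from the twisted action to a commutation relation -/
lemma gsel_rel_of_act (g w : M2 k) (hg : g.det ≠ 0) (c : k) (h : act g w = c • w) :
    g * w = (c / g.det) • (w * g) := by
  have h1 := gsel_act_mul_self g w
  rw [h, Matrix.smul_mul] at h1
  rw [div_eq_inv_mul, mul_smul, h1, smul_smul, inv_mul_cancel₀ hg, one_smul]

/-- `c • g = 0` with `g` invertible forces `c = 0` -/
lemma gsel_smul_unit_eq_zero (g : GL (Fin 2) k) (c : k) (h : c • g.1 = 0) : c = 0 := by
  have h1 : (c • g.1) * (g⁻¹).1 = 0 := by rw [h, zero_mul]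
  rw [Matrix.smul_mul, gsel_mul_inv] at h1
  have := congrFun (congrFun h1 0) 0
  simpa using this

/-- the square of a trace-zero matrix -/
lemma gsel_sq_of_trace_zero (m : M2 k) (htr : m.trace = 0) :
    m * m = (-m.det) • (1 : M2 k) := by
  rw [gsel_ch, htr, zero_smul, zero_sub, neg_smul]

/-- Under `Hyp` there is no stable line in the trace-zero matrices. -/
lemma gsel_line_false (p : ℕ) [Fact p.Prime] [CharP k p] {Γ : Type} [Group Γ]
    (ρ : Γ →* GL (Fin 2) k) (N : Subgroup Γ) (hyp : Hyp p ρ N) (w : M2 k) (hw : w ≠ 0)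
    (htr : w.trace = 0) (hst : ∀ σ, ∃ c : k, act (ρ σ).1 w = c • w) : False := by
  classical
  have h2 : (2 : k) ≠ 0 := gsel_two_ne_zero p hyp.odd
  set ι : k →+* AlgebraicClosure k := algebraMap k (AlgebraicClosure k) with hι
  have hιinj : Function.Injective ι := (algebraMap k (AlgebraicClosure k)).injective
  -- commutation up to scalars
  have hrel : ∀ σ, ∃ ε : k, (ρ σ).1 * w = ε • (w * (ρ σ).1) := fun σ => by
    obtain ⟨c, hc⟩ := hst σ
    exact ⟨_, gsel_rel_of_act _ w (gsel_det_ne_zero _) c hc⟩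
  have hmap : ∀ (g : M2 k) (ε : k), g * w = ε • (w * g) →
      g.map ι * w.map ι = ι ε • (w.map ι * g.map ι) := by
    intro g ε h
    rw [← Matrix.map_mul, ← Matrix.map_mul, ← Matrix.map_smul' _ _ _ (map_mul ι), h]
  have hw' : w.map ι ≠ 0 := by
    intro h0
    apply hw
    apply Matrix.map_injective hιinj
    show w.map ι = (0 : M2 k).map ι
    rw [h0]
    ext i j
    simp
  by_cases hdet : w.det = 0
  · -- nilpotent case
    have hdet' : (w.map ι).det = 0 := by
      rw [← RingHom.mapMatrix_apply, ← RingHom.map_det, hdet, map_zero]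
    obtain ⟨v, hv, hE⟩ := gsel_eigen (w.map ι) hw' hdet'
    refine hyp.irr ⊤ (Or.inl rfl) v hv (fun σ _ => ?_)
    obtain ⟨ε, hε⟩ := hrel σ
    exact hE _ ⟨ι ε, hmap _ ε hε⟩
  · -- semisimple case
    obtain ⟨s, hs⟩ := IsAlgClosed.exists_pow_nat_eq (ι (- w.det)) (n := 2) (by norm_num)
    have hsq : w * w = (-w.det) • (1 : M2 k) := gsel_sq_of_trace_zero w htr
    have hs0 : s ≠ 0 := by
      intro h0
      rw [h0, zero_pow (by norm_num)] at hs
      have : - w.det = 0 := hιinj (by rw [← hs, map_zero])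
      exact hdet (neg_eq_zero.1 this)
    have h2K : (2 : AlgebraicClosure k) ≠ 0 := by
      intro h
      apply h2
      apply hιinj
      rw [map_ofNat, h, map_zero]
    set n : M2 (AlgebraicClosure k) := w.map ι + s • (1 : M2 (AlgebraicClosure k)) with hn
    have hndet : n.det = 0 := by
      have h1 : ι (w 0 0) + ι (w 1 1) = 0 := by
        rw [← map_add, ← Matrix.trace_fin_two, htr, map_zero]
      have h3 : s ^ 2 = - (ι (w 0 0) * ι (w 1 1) - ι (w 0 1) * ι (w 1 0)) := by
        rw [hs, Matrix.det_fin_two]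
        simp
      simp only [hn, Matrix.det_fin_two, Matrix.add_apply, Matrix.map_apply, Matrix.smul_apply,
        Matrix.one_apply_eq, smul_eq_mul, mul_one]
      simp
      linear_combination s * h1 + h3
    have hn0 : n ≠ 0 := by
      intro h0
      have h1 : ι (w 0 0) + ι (w 1 1) = 0 := by
        rw [← map_add, ← Matrix.trace_fin_two, htr, map_zero]
      have ht : n.trace = 0 := by rw [h0, Matrix.trace_zero]
      simp only [hn, Matrix.trace_fin_two, Matrix.add_apply, Matrix.map_apply, Matrix.smul_apply,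
        Matrix.one_apply_eq, smul_eq_mul, mul_one] at ht
      have : (2 : AlgebraicClosure k) * s = 0 := by linear_combination ht - h1
      rcases mul_eq_zero.1 this with h | h
      · exact h2K h
      · exact hs0 h
    -- the subgroup commuting with `w`
    let H : Subgroup Γ :=
      { carrier := {σ | (ρ σ).1 * w = w * (ρ σ).1}
        one_mem' := by simp
        mul_mem' := by
          intro a b ha hb
          have ha' : (ρ a).1 * w = w * (ρ a).1 := ha
          have hb' : (ρ b).1 * w = w * (ρ b).1 := hb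
          show (ρ (a * b)).1 * w = w * (ρ (a * b)).1
          rw [map_mul, Units.val_mul, mul_assoc, hb', ← mul_assoc, ha', mul_assoc]
        inv_mem' := by
          intro a ha
          have ha : (ρ a).1 * w = w * (ρ a).1 := ha
          show (ρ a⁻¹).1 * w = w * (ρ a⁻¹).1
          rw [map_inv]
          calc ((ρ a)⁻¹).1 * w = ((ρ a)⁻¹).1 * w * ((ρ a).1 * ((ρ a)⁻¹).1) := by
                rw [gsel_mul_inv, mul_one]
            _ = ((ρ a)⁻¹).1 * (w * (ρ a).1) * ((ρ a)⁻¹).1 := by simp only [mul_assoc]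
            _ = ((ρ a)⁻¹).1 * ((ρ a).1 * w) * ((ρ a)⁻¹).1 := by rw [ha]
            _ = (((ρ a)⁻¹).1 * (ρ a).1) * w * ((ρ a)⁻¹).1 := by simp only [mul_assoc]
            _ = w * ((ρ a)⁻¹).1 := by rw [gsel_inv_mul, one_mul] }
    have hHmem : ∀ σ, σ ∈ H ↔ (ρ σ).1 * w = w * (ρ σ).1 := fun σ => Iff.rfl
    have hneg : ∀ σ, σ ∉ H → (ρ σ).1 * w = - (w * (ρ σ).1) := by
      intro σ hσ
      obtain ⟨ε, hε⟩ := hrel σ
      have h4 : ((-w.det) * (1 - ε ^ 2)) • (ρ σ).1 = 0 := by
        have e1 : (ρ σ).1 * (w * w) = (ε ^ 2) • ((w * w) * (ρ σ).1) := by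
          calc (ρ σ).1 * (w * w) = ((ρ σ).1 * w) * w := by rw [mul_assoc]
            _ = (ε • (w * (ρ σ).1)) * w := by rw [hε]
            _ = ε • (w * ((ρ σ).1 * w)) := by rw [Matrix.smul_mul, mul_assoc]
            _ = ε • (w * (ε • (w * (ρ σ).1))) := by rw [hε]
            _ = (ε ^ 2) • ((w * w) * (ρ σ).1) := by
                rw [Matrix.mul_smul, smul_smul, mul_assoc, pow_two]
        rw [hsq, Matrix.mul_smul, Matrix.smul_mul, mul_one, one_mul, smul_smul] at e1
        rw [mul_sub, mul_one, sub_smul, e1, mul_comm (ε ^ 2), sub_self]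
      have h5 := gsel_smul_unit_eq_zero (ρ σ) _ h4
      have h6 : ε ^ 2 = 1 := by
        rcases mul_eq_zero.1 h5 with h | h
        · exact absurd (neg_eq_zero.1 h) hdet
        · exact (sub_eq_zero.1 h).symm
      have h7 : (ε - 1) * (ε + 1) = 0 := by linear_combination h6
      rcases mul_eq_zero.1 h7 with h | h
      · exfalso
        apply hσ
        rw [hHmem, hε, sub_eq_zero.1 h, one_smul]
      · rw [hε, eq_neg_of_add_eq_zero_left h, neg_smul, one_smul]
    have hH : H = ⊤ ∨ H.index = 2 := by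
      by_cases htop : H = ⊤
      · exact Or.inl htop
      · right
        obtain ⟨a, ha⟩ : ∃ a, a ∉ H := by
          by_contra hcon
          push Not at hcon
          exact htop (eq_top_iff.2 (fun x _ => hcon x))
        rw [Subgroup.index_eq_two_iff]
        refine ⟨a, fun b => ?_⟩
        by_cases hb : b ∈ H
        · refine Or.inr ⟨hb, fun hba => ha ?_⟩
          have := H.mul_mem (H.inv_mem hb) hba
          rwa [inv_mul_cancel_left] at this
        · refine Or.inl ⟨?_, hb⟩
          rw [hHmem, map_mul, Units.val_mul, mul_assoc, hneg a ha, Matrix.mul_neg, ← mul_assoc,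
            hneg b hb, Matrix.neg_mul, neg_neg, mul_assoc]
    obtain ⟨v, hv, hE⟩ := gsel_eigen n hn0 hndet
    refine hyp.irr H hH v hv (fun σ hσ => hE _ ⟨1, ?_⟩)
    have hc : (ρ σ).1.map ι * w.map ι = w.map ι * (ρ σ).1.map ι := by
      rw [← Matrix.map_mul, ← Matrix.map_mul, (hHmem σ).1 hσ]
    rw [one_smul, hn, mul_add, add_mul, hc, Matrix.mul_smul, Matrix.smul_mul, mul_one, one_mul]

/-! ### P1: `ad⁰` is irreducible -/

/-- the trace form on `M₂(k)` -/
def gselB (k : Type) [Field k] : M2 k →ₗ[k] M2 k →ₗ[k] k :=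
  LinearMap.mk₂ k (fun x y => (x * y).trace)
    (fun x x' y => by simp only [add_mul, Matrix.trace_add])
    (fun c x y => by simp only [Matrix.smul_mul, Matrix.trace_smul])
    (fun x y y' => by simp only [mul_add, Matrix.trace_add])
    (fun c x y => by simp only [Matrix.mul_smul, Matrix.trace_smul])

lemma gselB_apply (x y : M2 k) : gselB k x y = (x * y).trace := rfl

lemma gsel_trace_smul_one (c : k) : (c • (1 : M2 k)).trace = 2 * c := by
  rw [Matrix.trace_smul, Matrix.trace_one, Fintype.card_fin, smul_eq_mul]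
  push_cast
  ring

/-- (P1, G-adirr) -/
theorem stmtAdIrr : StmtAdIrr := by
  intro p _ k _ _ _ Γ _ ρ N hyp W hWtr hWst
  classical
  by_contra hcon
  push Not at hcon
  obtain ⟨hW0, m₀, hm₀tr, hm₀⟩ := hcon
  have h2 : (2 : k) ≠ 0 := gsel_two_ne_zero p hyp.odd
  -- `W₁ = W ⊕ k·1`
  have hdisj : W ⊓ Submodule.span k {(1 : M2 k)} = ⊥ := by
    rw [eq_bot_iff]
    rintro x ⟨hxW, hx1⟩
    obtain ⟨c, rfl⟩ := Submodule.mem_span_singleton.1 hx1
    have h := hWtr _ hxW
    rw [gsel_trace_smul_one] at h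
    rcases mul_eq_zero.1 h with h | h
    · exact absurd h h2
    · rw [h, zero_smul]
      exact Submodule.zero_mem _
  have hfr1 : finrank k ↥(W ⊔ Submodule.span k {(1 : M2 k)}) = finrank k W + 1 := by
    have := Submodule.finrank_sup_add_finrank_inf_eq W (Submodule.span k {(1 : M2 k)})
    rw [hdisj, finrank_bot, add_zero, finrank_span_singleton one_ne_zero] at this
    exact this
  have hmemW₁ : ∀ y ∈ W ⊔ Submodule.span k {(1 : M2 k)}, ∃ w ∈ W, ∃ c : k,
      y = w + c • (1 : M2 k) := by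
    intro y hy
    obtain ⟨w, hw, z, hz, rfl⟩ := Submodule.mem_sup.1 hy
    obtain ⟨c, rfl⟩ := Submodule.mem_span_singleton.1 hz
    exact ⟨w, hw, c, rfl⟩
  have hm₀' : m₀ ∉ W ⊔ Submodule.span k {(1 : M2 k)} := by
    intro hmem
    obtain ⟨w, hw, c, rfl⟩ := hmemW₁ _ hmem
    rw [Matrix.trace_add, hWtr w hw, zero_add, gsel_trace_smul_one] at hm₀tr
    rcases mul_eq_zero.1 hm₀tr with h | h
    · exact h2 h
    · apply hm₀
      rw [h, zero_smul, add_zero]
      exact hw
  have hlt : finrank k ↥(W ⊔ Submodule.span k {(1 : M2 k)}) < 4 := by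
    have h := Submodule.finrank_lt
      (s := W ⊔ Submodule.span k {(1 : M2 k)}) (fun h => hm₀' (h ▸ Submodule.mem_top))
    have h4 : finrank k (M2 k) = 4 := by
      rw [Module.finrank_matrix]
      simp
    rwa [h4] at h
  have hpos : 1 ≤ finrank k W := Submodule.one_le_finrank_iff.2 hW0
  have hBr : ∀ y : M2 k, (∀ x, gselB k x y = 0) → y = 0 := fun y hy =>
    gsel_eq_zero_of_trace y hy
  have hperp := Fermat.Agent.TW.F.gw_finrank_perpL (gselB k) hBr
    (W ⊔ Submodule.span k {(1 : M2 k)})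
  have h4 : finrank k (M2 k) = 4 := by
    rw [Module.finrank_matrix]
    simp
  rw [h4] at hperp
  have hcases : finrank k W = 1 ∨
      finrank k ↥(Fermat.Agent.TW.F.gwPerpL (gselB k) (W ⊔ Submodule.span k {(1 : M2 k)})) = 1 := by
    omega
  rcases hcases with h1 | h1
  · -- `W` is a line
    obtain ⟨⟨w, hwW⟩, hw0, hwall⟩ := finrank_eq_one_iff'.1 h1
    refine gsel_line_false p ρ N hyp w (fun h => hw0 (Subtype.ext h)) (hWtr w hwW) (fun σ => ?_)
    obtain ⟨c, hc⟩ := hwall ⟨act (ρ σ).1 w, hWst σ w hwW⟩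
    exact ⟨c, (congrArg Subtype.val hc).symm⟩
  · -- the orthogonal complement of `W` in the trace-zero matrices is a line
    obtain ⟨⟨x, hxL⟩, hx0, hxall⟩ := finrank_eq_one_iff'.1 h1
    have hLtr : ∀ y ∈ Fermat.Agent.TW.F.gwPerpL (gselB k)
        (W ⊔ Submodule.span k {(1 : M2 k)}), y.trace = 0 := by
      intro y hy
      have := hy 1 (Submodule.mem_sup_right (Submodule.mem_span_singleton_self _))
      rwa [gselB_apply, mul_one] at this
    have hLst : ∀ σ, ∀ y ∈ Fermat.Agent.TW.F.gwPerpL (gselB k)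
        (W ⊔ Submodule.span k {(1 : M2 k)}), act (ρ σ).1 y ∈ Fermat.Agent.TW.F.gwPerpL (gselB k)
        (W ⊔ Submodule.span k {(1 : M2 k)}) := by
      intro σ y hy z hz
      obtain ⟨w, hw, c, rfl⟩ := hmemW₁ z hz
      rw [gselB_apply, mul_add, Matrix.trace_add, Matrix.mul_smul, mul_one, Matrix.trace_smul,
        gsel_act_trace, hLtr y hy, mul_zero, smul_zero, add_zero]
      have hw' : w = act (ρ σ).1 (act (ρ σ⁻¹).1 w) := by
        rw [← gsel_act_mul, map_inv, gsel_mul_inv, gsel_act_one]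
      rw [hw', gsel_act_trace_mul]
      have := hy (act (ρ σ⁻¹).1 w) (Submodule.mem_sup_left (hWst σ⁻¹ w hw))
      rw [gselB_apply] at this
      rw [this, mul_zero]
    refine gsel_line_false p ρ N hyp x (fun h => hx0 (Subtype.ext h)) (hLtr x hxL) (fun σ => ?_)
    obtain ⟨c, hc⟩ := hxall ⟨act (ρ σ).1 x, hLst σ x hxL⟩
    exact ⟨c, (congrArg Subtype.val hc).symm⟩

/-! ### P2: a regular element in `N` -/

/-- trace and determinant of a split matrix -/
lemma gsel_split_trace_det (g : M2 k) (α β : k)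
    (h : g.charpoly = (X - C α) * (X - C β)) : g.trace = α + β ∧ g.det = α * β := by
  rw [Matrix.charpoly_fin_two] at h
  have h0 := congrArg (Polynomial.eval 0) h
  have h1 := congrArg (Polynomial.eval 1) h
  simp only [Polynomial.eval_add, Polynomial.eval_sub, Polynomial.eval_mul, Polynomial.eval_pow,
    Polynomial.eval_X, Polynomial.eval_C] at h0 h1
  have hd : g.det = α * β := by linear_combination h0
  refine ⟨?_, hd⟩
  linear_combination hd - h1

/-- conversely -/
lemma gsel_charpoly_of_trace_det (g : M2 k) (α β : k) (ht : g.trace = α + β)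
    (hd : g.det = α * β) : g.charpoly = (X - C α) * (X - C β) := by
  rw [Matrix.charpoly_fin_two, ht, hd, C_add, C_mul]
  ring

/-- twice the trace-zero part of `g` -/
def gselN (g : M2 k) : M2 k := (2 : k) • g - g.trace • (1 : M2 k)

lemma gselN_trace (g : M2 k) : (gselN g).trace = 0 := by
  rw [gselN, Matrix.trace_sub, Matrix.trace_smul, gsel_trace_smul_one, smul_eq_mul]
  ring

lemma gselN_trace_mul_gselN (g h : M2 k) :
    (gselN g * gselN h).trace = 4 * (g * h).trace - 2 * g.trace * h.trace := by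
  simp only [gselN, sub_mul, mul_sub, Matrix.smul_mul, Matrix.mul_smul, mul_one, one_mul,
    Matrix.trace_sub, Matrix.trace_smul, smul_eq_mul, Matrix.trace_one, Fintype.card_fin,
    Nat.cast_ofNat]
  ring

lemma gselN_trace_mul_self (g : M2 k) :
    (gselN g * g).trace = g.trace ^ 2 - 4 * g.det := by
  rw [gselN, sub_mul, Matrix.smul_mul, Matrix.smul_mul, one_mul, gsel_ch, Matrix.trace_sub,
    Matrix.trace_smul, Matrix.trace_smul, Matrix.trace_sub, Matrix.trace_smul,
    gsel_trace_smul_one]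
  simp only [smul_eq_mul]
  ring

/-- `tr(g² h) = tr g · tr(g h) - det g · tr h` -/
lemma gsel_trace_sq_mul (g h : M2 k) :
    (g * g * h).trace = g.trace * (g * h).trace - g.det * h.trace := by
  rw [gsel_ch, sub_mul, Matrix.smul_mul, Matrix.smul_mul, one_mul, Matrix.trace_sub,
    Matrix.trace_smul, Matrix.trace_smul, smul_eq_mul, smul_eq_mul]

lemma gsel_adj (g : GL (Fin 2) k) : g.1.adjugate = g.1.det • (g⁻¹).1 := by
  have h : (g⁻¹).1 * (g.1 * g.1.adjugate) = (g⁻¹).1 * (g.1.det • (1 : M2 k)) :=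
    congrArg (fun x => (g⁻¹).1 * x) (Matrix.mul_adjugate g.1)
  rw [← mul_assoc, gsel_inv_mul, one_mul, Matrix.mul_smul, mul_one] at h
  exact h

lemma gsel_act_unit (g : GL (Fin 2) k) (m : M2 k) :
    act g.1 m = g.1.det • (g.1 * m * (g⁻¹).1) := by
  rw [act, gsel_adj, Matrix.mul_smul]

lemma gselN_conj (g : GL (Fin 2) k) (h : M2 k) :
    gselN (g.1 * h * (g⁻¹).1) = g.1 * gselN h * (g⁻¹).1 := by
  have ht : (g.1 * h * (g⁻¹).1).trace = h.trace := by
    rw [Matrix.trace_mul_comm, ← mul_assoc, gsel_inv_mul, one_mul]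
  rw [gselN, gselN, ht, mul_sub, sub_mul, Matrix.mul_smul, Matrix.smul_mul, Matrix.mul_smul,
    Matrix.smul_mul, mul_one, gsel_mul_inv]

lemma gsel_act_gselN (g : GL (Fin 2) k) (h : M2 k) :
    act g.1 (gselN h) = g.1.det • gselN (g.1 * h * (g⁻¹).1) := by
  rw [gsel_act_unit, gselN_conj]

/-- the stabiliser of the line `k v` in `GL₂(k)` -/
def gselLineStab (v : Fin 2 → k) (hv : v ≠ 0) : Subgroup (GL (Fin 2) k) where
  carrier := {g | ∃ c : k, g.1 *ᵥ v = c • v}
  one_mem' := ⟨1, by simp⟩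
  mul_mem' := by
    rintro a b ⟨c, hc⟩ ⟨d, hd⟩
    refine ⟨d * c, ?_⟩
    rw [Units.val_mul, ← Matrix.mulVec_mulVec, hd, Matrix.mulVec_smul, hc, smul_smul]
  inv_mem' := by
    rintro a ⟨c, hc⟩
    have hc0 : c ≠ 0 := by
      rintro rfl
      rw [zero_smul] at hc
      apply hv
      have h := congrArg (fun x => (a⁻¹).1 *ᵥ x) hc
      simp only [Matrix.mulVec_mulVec, gsel_inv_mul, Matrix.one_mulVec, Matrix.mulVec_zero] at h
      exact h
    refine ⟨c⁻¹, ?_⟩
    have h := congrArg (fun x => c⁻¹ • (a⁻¹).1 *ᵥ x) hc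
    simp only [Matrix.mulVec_mulVec, gsel_inv_mul, Matrix.one_mulVec, Matrix.mulVec_smul,
      smul_smul, inv_mul_cancel₀ hc0, one_smul] at h
    exact h.symm

lemma gsel_mem_lineStab (v : Fin 2 → k) (hv : v ≠ 0) (g : GL (Fin 2) k) :
    g ∈ gselLineStab v hv ↔ ∃ c : k, g.1 *ᵥ v = c • v := Iff.rfl

/-- (P2, G-dist) -/
theorem stmtDist : StmtDist := by
  intro p _ k _ _ _ Γ _ ρ N hyp
  classical
  by_contra hno
  push Not at hno
  have h2 : (2 : k) ≠ 0 := gsel_two_ne_zero p hyp.odd
  have htr : ∀ σ ∈ N, (ρ σ).1.trace ^ 2 = 4 := by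
    intro σ hσ
    obtain ⟨α, β, hαβ⟩ := hyp.split σ
    have hab : α = β := by
      by_contra hne
      exact hno σ hσ ⟨α, β, hne, hαβ⟩
    subst hab
    obtain ⟨ht, hd⟩ := gsel_split_trace_det _ α α hαβ
    rw [hyp.det_N σ hσ] at hd
    rw [ht]
    linear_combination (-4 : k) * hd
  have hpair : ∀ σ ∈ N, ∀ τ ∈ N, (gselN (ρ σ).1 * gselN (ρ τ).1).trace = 0 := by
    intro σ hσ τ hτ
    have t1 := htr σ hσ
    have t2 := htr τ hτ
    have s2 := htr (σ * τ) (N.mul_mem hσ hτ)
    have s3 := htr (σ * σ * τ) (N.mul_mem (N.mul_mem hσ hσ) hτ)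
    rw [map_mul, Units.val_mul] at s2
    rw [map_mul, map_mul, Units.val_mul, Units.val_mul, gsel_trace_sq_mul, hyp.det_N σ hσ,
      one_mul] at s3
    rw [gselN_trace_mul_gselN]
    have key : 8 * ((ρ σ).1.trace * (ρ τ).1.trace - 2 * ((ρ σ).1 * (ρ τ).1).trace) = 0 := by
      linear_combination
        (4 * ((ρ σ).1 * (ρ τ).1).trace +
          ((ρ σ).1 * (ρ τ).1).trace * (((ρ σ).1 * (ρ τ).1).trace ^ 2 - 4)) * t1 +
        ((ρ σ).1 * (ρ τ).1).trace * t2 +
        (4 * ((ρ σ).1 * (ρ τ).1).trace - 2 * (ρ σ).1.trace * (ρ τ).1.trace) * s2 -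
        ((ρ σ).1 * (ρ τ).1).trace * s3
    have h8 : (8 : k) ≠ 0 := by
      have : (8 : k) = 2 ^ 3 := by norm_num
      rw [this]
      exact pow_ne_zero _ h2
    have hu := (mul_eq_zero.1 key).resolve_left h8
    linear_combination (-2 : k) * hu
  set Y : Submodule k (M2 k) := Submodule.span k {y | ∃ σ ∈ N, y = gselN (ρ σ).1} with hY
  have hYtr : ∀ y ∈ Y, y.trace = 0 := by
    intro y hy
    induction hy using Submodule.span_induction with
    | mem x hx =>
      obtain ⟨σ, _, rfl⟩ := hx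
      exact gselN_trace _
    | zero => exact Matrix.trace_zero _ _
    | add x y _ _ hx hy => rw [Matrix.trace_add, hx, hy, add_zero]
    | smul c x _ hx => rw [Matrix.trace_smul, hx, smul_zero]
  have hYiso1 : ∀ τ ∈ N, ∀ y ∈ Y, (y * gselN (ρ τ).1).trace = 0 := by
    intro τ hτ y hy
    induction hy using Submodule.span_induction with
    | mem x hx =>
      obtain ⟨σ, hσ, rfl⟩ := hx
      exact hpair σ hσ τ hτ
    | zero => rw [zero_mul, Matrix.trace_zero]
    | add x y _ _ hx hy => rw [add_mul, Matrix.trace_add, hx, hy, add_zero]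
    | smul c x _ hx => rw [Matrix.smul_mul, Matrix.trace_smul, hx, smul_zero]
  have hYiso : ∀ y ∈ Y, ∀ y' ∈ Y, (y * y').trace = 0 := by
    intro y hy y' hy'
    induction hy' using Submodule.span_induction with
    | mem x hx =>
      obtain ⟨τ, hτ, rfl⟩ := hx
      exact hYiso1 τ hτ y hy
    | zero => rw [mul_zero, Matrix.trace_zero]
    | add x z _ _ hx hz => rw [mul_add, Matrix.trace_add, hx, hz, add_zero]
    | smul c x _ hx => rw [Matrix.mul_smul, Matrix.trace_smul, hx, smul_zero]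
  have hYst : ∀ σ : Γ, ∀ y ∈ Y, act (ρ σ).1 y ∈ Y := by
    intro σ y hy
    induction hy using Submodule.span_induction with
    | mem x hx =>
      obtain ⟨τ, hτ, rfl⟩ := hx
      rw [gsel_act_gselN]
      refine Y.smul_mem _ (Submodule.subset_span ⟨σ * τ * σ⁻¹, hyp.normal.conj_mem τ hτ σ, ?_⟩)
      rw [map_mul, map_mul, map_inv, Units.val_mul, Units.val_mul]
    | zero =>
      rw [act, mul_zero, zero_mul]
      exact Y.zero_mem
    | add x z _ _ hx hz =>
      rw [gsel_act_add]
      exact Y.add_mem hx hz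
    | smul c x _ hx =>
      rw [gsel_act_smul]
      exact Y.smul_mem c hx
  rcases stmtAdIrr p k Γ ρ N hyp Y hYtr hYst with hbot | hall
  · -- `ρ(N)` is scalar
    have hsc : ∀ σ ∈ N, ∃ c : k, (ρ σ).1 = c • (1 : M2 k) := by
      intro σ hσ
      have hmem : gselN (ρ σ).1 ∈ Y := Submodule.subset_span ⟨σ, hσ, rfl⟩
      rw [hbot, Submodule.mem_bot, gselN, sub_eq_zero] at hmem
      refine ⟨2⁻¹ * (ρ σ).1.trace, ?_⟩
      have h := congrArg (fun x => (2 : k)⁻¹ • x) hmem
      simp only [smul_smul, inv_mul_cancel₀ h2, one_smul] at h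
      exact h
    obtain ⟨γ, hγ⟩ := hyp.cyc
    obtain ⟨α, β, hαβ⟩ := hyp.split γ
    obtain ⟨ht, hd⟩ := gsel_split_trace_det _ α β hαβ
    have hdet0 : ((ρ γ).1 - α • (1 : M2 k)).det = 0 := by
      rw [Matrix.det_fin_two] at hd ⊢
      rw [Matrix.trace_fin_two] at ht
      simp only [Matrix.sub_apply, Matrix.smul_apply, Matrix.one_apply_eq, smul_eq_mul, mul_one,
        ne_eq, zero_ne_one, one_ne_zero, not_false_eq_true, Matrix.one_apply_ne, mul_zero,
        sub_zero]
      linear_combination hd - α * ht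
    obtain ⟨v, hv, hvE⟩ := Matrix.exists_mulVec_eq_zero_iff.2 hdet0
    have hγv : (ρ γ).1 *ᵥ v = α • v := by
      rw [Matrix.sub_mulVec, Matrix.smul_mulVec, Matrix.one_mulVec, sub_eq_zero] at hvE
      exact hvE
    have hall : ∀ σ, ρ σ ∈ gselLineStab v hv := by
      intro σ
      obtain ⟨n, hn⟩ := hγ σ
      have hN : ρ (γ ^ n * σ) ∈ gselLineStab v hv := by
        obtain ⟨c, hc⟩ := hsc _ hn
        exact ⟨c, by rw [hc, Matrix.smul_mulVec, Matrix.one_mulVec]⟩
      have hγE : ρ γ ∈ gselLineStab v hv := ⟨α, hγv⟩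
      have : ρ σ = (ρ γ ^ n)⁻¹ * ρ (γ ^ n * σ) := by
        rw [map_mul, map_zpow, inv_mul_cancel_left]
      rw [this]
      exact Subgroup.mul_mem _ (Subgroup.inv_mem _ (Subgroup.zpow_mem _ hγE n)) hN
    refine hyp.irr ⊤ (Or.inl rfl) (algebraMap k (AlgebraicClosure k) ∘ v) ?_ (fun σ _ => ?_)
    · intro h0
      apply hv
      ext i
      have := congrFun h0 i
      simp only [Function.comp_apply, Pi.zero_apply] at this
      exact (map_eq_zero (algebraMap k (AlgebraicClosure k))).1 this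
    · obtain ⟨c, hc⟩ := hall σ
      refine ⟨algebraMap k (AlgebraicClosure k) c, ?_⟩
      ext i
      rw [← RingHom.map_mulVec, hc]
      simp
  · have hH : eH ∈ Y := hall eH (by simp [eH, Matrix.trace_fin_two])
    have := hYiso eH hH eH hH
    simp [eH, Matrix.trace_fin_two] at this
    exact h2 (by linear_combination this)

/-! ### P3: a cocycle not vanishing on `N ∩ ker ρ` -/

/-- a coboundary at `σ` (with `det ρ(σ) = 1`) is orthogonal to `ρ(σ)` for the trace form -/
lemma gsel_cob_trace (g m : M2 k) (hdet : g.det = 1) : ((act g m - m) * g).trace = 0 := by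
  rw [sub_mul, gsel_act_mul_self, hdet, one_smul, Matrix.trace_sub, Matrix.trace_mul_comm,
    sub_self]

/-- a cocycle is equivariant on the kernel of `ρ` -/
lemma gsel_coc_conj {Γ : Type} [Group Γ] (ρ : Γ →* GL (Fin 2) k) (ψ : Γ → M2 k)
    (hψ : IsCoc ρ ψ) (σ z : Γ) (hz : ρ z = 1) :
    ψ (σ * z * σ⁻¹) = act (ρ σ).1 (ψ z) := by
  have h1 := hψ.map_mul (σ * z * σ⁻¹) σ
  have h2 := hψ.map_mul σ z
  have hρ : ρ (σ * z * σ⁻¹) = 1 := by
    rw [map_mul, map_mul, hz, mul_one, map_inv, mul_inv_cancel]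
  rw [hρ, Units.val_one, gsel_act_one] at h1
  have e : σ * z * σ⁻¹ * σ = σ * z := by group
  rw [e, h2] at h1
  have h3 : act (ρ σ).1 (ψ z) + ψ σ = ψ (σ * z * σ⁻¹) + ψ σ := by
    rw [← h1, add_comm]
  exact (add_right_cancel h3).symm

/-- (P3, G-find) -/
theorem stmtFind : StmtFind := by
  intro p _ k _ _ _ Γ _ ρ N hyp ψ hψ hz
  classical
  obtain ⟨z₀, hz₀N, hz₀ρ, hz₀ψ⟩ := hz
  set W : Submodule k (M2 k) := Submodule.span k {y | ∃ z ∈ N, ρ z = 1 ∧ y = ψ z} with hW
  have hWtr : ∀ w ∈ W, w.trace = 0 := by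
    intro y hy
    induction hy using Submodule.span_induction with
    | mem x hx =>
      obtain ⟨z, _, _, rfl⟩ := hx
      exact hψ.trace_zero z
    | zero => exact Matrix.trace_zero _ _
    | add x y _ _ hx hy => rw [Matrix.trace_add, hx, hy, add_zero]
    | smul c x _ hx => rw [Matrix.trace_smul, hx, smul_zero]
  have hWst : ∀ σ : Γ, ∀ w ∈ W, act (ρ σ).1 w ∈ W := by
    intro σ y hy
    induction hy using Submodule.span_induction with
    | mem x hx =>
      obtain ⟨z, hzN, hzρ, rfl⟩ := hx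
      rw [← gsel_coc_conj ρ ψ hψ σ z hzρ]
      refine Submodule.subset_span ⟨σ * z * σ⁻¹, hyp.normal.conj_mem z hzN σ, ?_, rfl⟩
      rw [map_mul, map_mul, hzρ, mul_one, map_inv, mul_inv_cancel]
    | zero =>
      rw [act, mul_zero, zero_mul]
      exact W.zero_mem
    | add x z _ _ hx hz =>
      rw [gsel_act_add]
      exact W.add_mem hx hz
    | smul c x _ hx =>
      rw [gsel_act_smul]
      exact W.smul_mem c hx
  have hWall : ∀ m : M2 k, m.trace = 0 → m ∈ W := by
    rcases stmtAdIrr p k Γ ρ N hyp W hWtr hWst with h | h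
    · exfalso
      apply hz₀ψ
      have hmem : ψ z₀ ∈ W := Submodule.subset_span ⟨z₀, hz₀N, hz₀ρ, rfl⟩
      rw [h] at hmem
      exact (Submodule.mem_bot k).1 hmem
    · exact h
  obtain ⟨σ₀, hσ₀N, α, β, hne, hαβ⟩ := stmtDist p k Γ ρ N hyp
  obtain ⟨ht, hd⟩ := gsel_split_trace_det _ α β hαβ
  have hdet1 := hyp.det_N σ₀ hσ₀N
  have hw : (gselN (ρ σ₀).1 * (ρ σ₀).1).trace ≠ 0 := by
    rw [gselN_trace_mul_self, ht, hd]
    have e : (α + β) ^ 2 - 4 * (α * β) = (α - β) ^ 2 := by ring
    rw [e]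
    exact pow_ne_zero _ (sub_ne_zero.2 hne)
  have hex : ∃ z ∈ N, ρ z = 1 ∧ (ψ z * (ρ σ₀).1).trace ≠ 0 := by
    by_contra hcon
    push Not at hcon
    have hall : ∀ y ∈ W, (y * (ρ σ₀).1).trace = 0 := by
      intro y hy
      induction hy using Submodule.span_induction with
      | mem x hx =>
        obtain ⟨z, hzN, hzρ, rfl⟩ := hx
        exact hcon z hzN hzρ
      | zero => rw [zero_mul, Matrix.trace_zero]
      | add x y _ _ hx hy => rw [add_mul, Matrix.trace_add, hx, hy, add_zero]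
      | smul c x _ hx => rw [Matrix.smul_mul, Matrix.trace_smul, hx, smul_zero]
    exact hw (hall _ (hWall _ (gselN_trace _)))
  obtain ⟨z, hzN, hzρ, hzt⟩ := hex
  by_cases h0 : (ψ σ₀ * (ρ σ₀).1).trace = 0
  · have hρ : ρ (z * σ₀) = ρ σ₀ := by rw [map_mul, hzρ, one_mul]
    refine ⟨z * σ₀, N.mul_mem hzN hσ₀N, ?_, ?_⟩
    · rw [hρ]
      exact ⟨α, β, hne, hαβ⟩
    · rintro ⟨m, _, hcob⟩
      have hψz : ψ (z * σ₀) = ψ z + ψ σ₀ := by
        rw [hψ.map_mul, hzρ, Units.val_one, gsel_act_one]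
      rw [hρ] at hcob
      have h := gsel_cob_trace (ρ σ₀).1 m hdet1
      rw [← hcob, hψz, add_mul, Matrix.trace_add, h0, add_zero] at h
      exact hzt h
  · refine ⟨σ₀, hσ₀N, ⟨α, β, hne, hαβ⟩, ?_⟩
    rintro ⟨m, _, hcob⟩
    have h := gsel_cob_trace (ρ σ₀).1 m hdet1
    rw [← hcob] at h
    exact h0 h

end Fermat.Agent.TW.G.Sel
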