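/-
TW-G / C-kill, FINAL (helper54): the Taylor–Wiles primes kill the level classes of `ad⁰(1)`,
UNCONDITIONAL.  Import this file to use C-kill.

  `stmtKillAll 𝒪 : Core.StmtKillAll 𝒪`
     = W6 `stmtKillAll_of` + `Wire.stmtGKill` (TW/G/Wire/Final.lean, helper26) + W4 `Wire.stmtWLoc`
       + `S.stmtAdLevel` + `stmtLevFin` + `S.stmtTow`.
-/
import Fermat.Agent.TW.G.KillAll
import Fermat.Agent.TW.G.LevFin
import Fermat.Agent.TW.G.Wire.Final
import Fermat.Agent.TW.G.Wire.Loc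
import Fermat.Agent.TW.S.AdLevel
import Fermat.Agent.TW.S.Tow

set_option autoImplicit false

namespace Fermat.Agent.TW.G

open IsLocalRing

/-- **C-kill**, unconditional: the Taylor–Wiles primes kill the level classes of `ad⁰(1)`. -/
theorem stmtKillAll (𝒪 : Type) [CommRing 𝒪] [IsDomain 𝒪] [IsDiscreteValuationRing 𝒪]
    [IsAdicComplete (maximalIdeal 𝒪) 𝒪] [Finite (ResidueField 𝒪)] :
    Fermat.Agent.TW.Core.StmtKillAll 𝒪 :=
  stmtKillAll_of Wire.stmtGKill Wire.stmtWLoc Fermat.Agent.TW.S.stmtAdLevel stmtLevFin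
    Fermat.Agent.TW.S.stmtTow

end Fermat.Agent.TW.G
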