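/-
TW-G / C-kill, GENERAL FORM (helper26): the Taylor–Wiles primes kill the level classes of
`ad⁰(1)` which are unramified outside ANY finite set `T' ⊇ Smin` of primes, with `r` primes for
EVERY `r ≥ r₀`.

  `stmtKillGen 𝒪 p ρbar S Smin T' hyp hT'` :
     `∃ r₀, ∀ r ≥ r₀, ∀ n, ∃ qv : Fin r → ℕ, IsTWFamily p ρbar S n r qv ∧`
     `  ∀ x ∈ levH1 (towerS (primesOf (T' ∪ Q))) ad⁰(1), (∀ q ∈ Q, res_q x = 0) → x = 0`.

`T' = Smin` is `Core.StmtKillAll` (`stmtKillAll`, helper54); `T' = Smin ∪ T` is the kill step of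
the framed Taylor–Wiles primes (RT-K3).  Proof: the proof of `stmtKillAll_of` (TW/G/KillAll.lean,
helper54) verbatim, `Wire.stmtGKill` being general in the subspace `D₀` and in `r`.
-/
import Fermat.Agent.TW.G.KillAllFinal

set_option autoImplicit false
set_option linter.unusedSectionVars false
set_option linter.unusedVariables false
set_option linter.style.haveILetI false

noncomputable section

namespace Fermat.Agent.TW.G

open CategoryTheory groupCohomology IsLocalRing Module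
open Fermat.Agent.PT Fermat.Agent.PT.B Fermat.Agent.TW.S Fermat.Agent.TW.L Fermat.Agent.TW.F
open ExtCitation

section

variable (𝒪 : Type) [CommRing 𝒪] [IsDomain 𝒪] [IsDiscreteValuationRing 𝒪]
  [IsAdicComplete (maximalIdeal 𝒪) 𝒪] [Finite (ResidueField 𝒪)]

/-- **C-kill, general form.** -/
theorem stmtKillGen (p : ℕ) [Fact p.Prime] [CharP (ResidueField 𝒪) p]
    (ρbar : ResidualGaloisRep (ResidueField 𝒪)) (S Smin T' : Finset ℕ)
    (hyp : TWHyp 𝒪 p ρbar S Smin) (hT' : Smin ⊆ T') :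
    ∃ r₀ : ℕ, ∀ r : ℕ, r₀ ≤ r → ∀ n : ℕ, ∃ qv : Fin r → ℕ, IsTWFamily p ρbar S n r qv ∧
      ∀ x ∈ levH1 (towerS (primesOf (T' ∪ Finset.univ.image qv))) (Wire.adTw p ρbar),
        (∀ (i : Fin r) (hq : (qv i).Prime),
          letI : Fact (qv i).Prime := ⟨hq⟩
          (groupCohomology.map (localGaloisToGlobal (qv i))
            (𝟙 (locRep (qv i) (Wire.adTw p ρbar))) 1).hom x = 0) →
        x = 0 := by
  haveI := wkill_fd_adTw p ρbar
  have hpT₀ : pPrime p ∈ primesOf T' := Finset.mem_subtype.2 (hT' hyp.hpSmin)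
  have hunr₀ : ∀ q : Nat.Primes, q ∉ primesOf T' → ρbar.IsUnramifiedAt (q : ℕ) := by
    intro q hq
    have hq' : (q : ℕ) ∉ Smin := fun h => hq (Finset.mem_subtype.2 (hT' h))
    have hqp : (q : ℕ) ≠ p := fun h => hq' (h ▸ hyp.hpSmin)
    by_contra hram
    exact hq' ((hyp.hmin q q.2 hqp).2 hram)
  have hlev : TrivOnLevel (towerS (primesOf T')) (Wire.adTw p ρbar) :=
    (Fermat.Agent.TW.S.stmtAdLevel p (ResidueField 𝒪) ρbar (primesOf T') hpT₀ hunr₀).2
  haveI hfin : Finite ↥(levH1 (towerS (primesOf T')) (Wire.adTw p ρbar)) :=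
    stmtLevFin p hyp.hp2 (primesOf T') hpT₀ (Wire.adTw p ρbar) hlev
  have hmf : Module.Finite (ZMod p) ↥(levH1 (towerS (primesOf T')) (Wire.adTw p ρbar)) :=
    Module.Finite.of_finite
  have hcoc : ∀ y ∈ levH1 (towerS (primesOf T')) (Wire.adTw p ρbar),
      ∃ c : cocycles₁ (Wire.adTw p ρbar), (H1π (Wire.adTw p ρbar)).hom c = y ∧
        Wire.IsLevCoc p ρbar (c : GQ → (Wire.adTw p ρbar).V) := by
    intro y hy
    obtain ⟨c, ⟨U, ⟨F, hF, rfl⟩, hU⟩, hcy⟩ := (mem_levH1_iff _ _ y).1 hy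
    exact ⟨c, hcy, c.2, F, hF.1, hU⟩
  refine ⟨finrank (ZMod p) ↥(levH1 (towerS (primesOf T')) (Wire.adTw p ρbar)),
    fun r hr n => ?_⟩
  obtain ⟨qv, hTW, hkill⟩ := Wire.stmtGKill 𝒪 p ρbar S Smin hyp
    (levH1 (towerS (primesOf T')) (Wire.adTw p ρbar)) hmf hcoc r hr n
  refine ⟨qv, hTW, fun x hx hres => ?_⟩
  -- `x` is a level class for the small tower
  have hsub : primesOf T' ⊆ primesOf (T' ∪ Finset.univ.image qv) := by
    intro q hq
    exact Finset.mem_subtype.2 (Finset.mem_union_left _ (Finset.mem_subtype.1 hq))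
  have hx₀ : x ∈ levH1 (towerS (primesOf T')) (Wire.adTw p ρbar) := by
    refine Fermat.Agent.TW.S.stmtTow p (primesOf T') (primesOf (T' ∪ Finset.univ.image qv)) hsub
      (Wire.adTw p ρbar) hlev x hx ?_
    rintro ⟨q, hqprime⟩ hqT hqT₀
    have h1 : q ∈ T' ∪ Finset.univ.image qv := Finset.mem_subtype.1 hqT
    have h2 : q ∉ T' := fun h => hqT₀ (Finset.mem_subtype.2 h)
    rcases Finset.mem_union.1 h1 with h | h
    · exact absurd h h2
    · obtain ⟨i, -, rfl⟩ := Finset.mem_image.1 h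
      exact wkill_mem_of_eq_zero _ (hres i hqprime)
  refine hkill x hx₀ fun i => ?_
  obtain ⟨c, -, hcx⟩ := (mem_levH1_iff _ _ x).1 hx
  haveI : Fact (qv i).Prime := ⟨(hTW.2.1 i).1⟩
  exact ⟨c, hcx, wkill_trivFrob p ρbar Wire.stmtWLoc (qv i) c
    (by rw [hcx]; exact hres i (hTW.2.1 i).1)⟩

end

end Fermat.Agent.TW.G

end
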