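import Mathlib
import Fermat.Agent.TW.G.Plan
import Fermat.Agent.TW.G.Sel

/-!
# TW-G / P4 (G-asm): assembly on the level of `Γ`  (helper86)

`stmtAsm : StmtAsm`, i.e. `StmtAdIrr → StmtFind → StmtFin → StmtGSel`.

`Z := N ∩ ker ρ`.  If `ψ|_Z ≠ 0`: `StmtFind`.  Otherwise `ψ` vanishes on all of `ker ρ`
(for `z ∈ ker ρ` and `g ∈ Γ` the commutator `c = g z g⁻¹ z⁻¹` lies in `Z`, and `g z = c (z g)` gives
`g ⋆ ψ(z) = ψ(z)`: a `Γ`-fixed vector of `ad⁰(1)`, hence `0` by `gsel_line_false`), so `ψ` descends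
to a cocycle on `G = ρ(Γ)`, which is a coboundary by `StmtFin`.
-/

set_option autoImplicit false

namespace Fermat.Agent.TW.G.Sel

open Matrix Polynomial

variable {k : Type} [Field k] {Γ : Type} [Group Γ]

/-- commutators lie in `N` when `Γ/N` is cyclic -/
lemma gasm_comm_mem (N : Subgroup Γ) [N.Normal] (γ : Γ)
    (hγ : ∀ σ : Γ, ∃ n : ℤ, γ ^ n * σ ∈ N) (a b : Γ) : a * b * a⁻¹ * b⁻¹ ∈ N := by
  obtain ⟨m, hm⟩ := hγ a
  obtain ⟨n, hn⟩ := hγ b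
  rw [← QuotientGroup.eq_one_iff] at hm hn ⊢
  simp only [QuotientGroup.mk_mul, QuotientGroup.mk_zpow, QuotientGroup.mk_inv] at hm hn ⊢
  have ha : (a : Γ ⧸ N) = ((γ : Γ ⧸ N) ^ m)⁻¹ := eq_inv_of_mul_eq_one_right hm
  have hb : (b : Γ ⧸ N) = ((γ : Γ ⧸ N) ^ n)⁻¹ := eq_inv_of_mul_eq_one_right hn
  rw [ha, hb]
  group

/-- (P4, G-asm) -/
theorem stmtAsm : StmtAsm := by
  intro _ hFind hFin p _ k _ _ _ Γ _ ρ N hyp ψ hψ hncob
  classical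
  by_cases hZ : ∃ z ∈ N, ρ z = 1 ∧ ψ z ≠ 0
  · exact hFind p k Γ ρ N hyp ψ hψ hZ
  exfalso
  push Not at hZ
  have := hyp.normal
  obtain ⟨γ, hγ⟩ := hyp.cyc
  -- `ψ` vanishes on `ker ρ`
  have hker : ∀ z, ρ z = 1 → ψ z = 0 := by
    intro z hz
    by_contra hne
    refine gsel_line_false p ρ N hyp (ψ z) hne (hψ.trace_zero z) (fun g => ⟨1, ?_⟩)
    rw [one_smul]
    have hc : g * z * g⁻¹ * z⁻¹ ∈ N := gasm_comm_mem N γ hγ g z
    have hcρ : ρ (g * z * g⁻¹ * z⁻¹) = 1 := by simp [hz]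
    have hc0 := hZ _ hc hcρ
    have e : (g * z * g⁻¹ * z⁻¹) * (z * g) = g * z := by group
    have h1 := hψ.map_mul g z
    have h2 := hψ.map_mul (g * z * g⁻¹ * z⁻¹) (z * g)
    have h3 := hψ.map_mul z g
    rw [e, hc0, hcρ, Units.val_one, gsel_act_one, zero_add, h3, hz, Units.val_one, gsel_act_one,
      h1] at h2
    exact add_left_cancel (a := ψ g) (by rw [h2, add_comm])
  -- `ψ` factors through `ρ`
  have hwd : ∀ σ τ, ρ σ = ρ τ → ψ σ = ψ τ := by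
    intro σ τ h
    have hk : ρ (τ⁻¹ * σ) = 1 := by rw [map_mul, map_inv, h, inv_mul_cancel]
    have := hψ.map_mul τ (τ⁻¹ * σ)
    rw [mul_inv_cancel_left, hker _ hk] at this
    rw [this, act, mul_zero, zero_mul, add_zero]
  set ψ' : GL (Fin 2) k → M2 k := fun g => if h : ∃ σ, ρ σ = g then ψ h.choose else 0 with hψ'
  have hψ'ρ : ∀ σ, ψ' (ρ σ) = ψ σ := by
    intro σ
    have h : ∃ τ, ρ τ = ρ σ := ⟨σ, rfl⟩
    simp only [hψ', dif_pos h]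
    exact hwd _ _ h.choose_spec
  have hcoc : IsCocOn ρ.range ψ' := by
    refine ⟨?_, ?_⟩
    · rintro g ⟨σ, rfl⟩
      rw [hψ'ρ]
      exact hψ.trace_zero σ
    · rintro g ⟨σ, rfl⟩ h ⟨τ, rfl⟩
      rw [← map_mul, hψ'ρ, hψ'ρ, hψ'ρ]
      exact hψ.map_mul σ τ
  have hfin : FinHyp p ρ.range := by
    refine ⟨hyp.odd, ?_, ?_, ?_, ?_⟩
    · rintro g ⟨σ, rfl⟩
      exact hyp.det_int σ
    · intro a ha
      obtain ⟨σ, hσ⟩ := hyp.det_surj a ha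
      exact ⟨ρ σ, ⟨σ, rfl⟩, hσ⟩
    · rintro g ⟨σ, rfl⟩
      exact hyp.split σ
    · intro v hv hall
      exact hyp.irr ⊤ (Or.inl rfl) v hv (fun σ _ => hall (ρ σ) ⟨σ, rfl⟩)
  obtain ⟨m, hm, hcob⟩ := hFin p k ρ.range hfin ψ' hcoc
  exact hncob ⟨m, hm, fun σ => by rw [← hψ'ρ]; exact hcob (ρ σ) ⟨σ, rfl⟩⟩

end Fermat.Agent.TW.G.Sel
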