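import Fermat.Agent.TW.G.Plan

/-!
# TW-G / P7 (helper41): basic matrix computations for the Borel pieces

Shared by `BorelU.lean` (P7a) and `BorelT.lean` (P7b).  Names `gbb_*`.  Mathlib only.
-/

set_option autoImplicit false

namespace Fermat.Agent.TW.G.Sel

open Matrix

variable {k : Type} [Field k]

/-- the twisted adjoint action of an upper triangular matrix, in coordinates -/
theorem gbb_act_upper (a b d p q r s : k) :
    act (!![a, b; 0, d] : M2 k) !![p, q; r, s] =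
      !![(a * p + b * r) * d, (a * q + b * s) * a - (a * p + b * r) * b;
         d * d * r, d * s * a - d * r * b] := by
  ext i j
  fin_cases i <;> fin_cases j <;>
    simp [act, Matrix.adjugate_fin_two, Matrix.mul_apply, Fin.sum_univ_two] <;> ring

theorem gbb_uU_mul (x y : k) : uU x * uU y = uU (x + y) := by
  ext i j
  fin_cases i <;> fin_cases j <;>
    simp [uU, Matrix.mul_apply, Fin.sum_univ_two, add_comm]

theorem gbb_uU_zero : uU (0 : k) = 1 := by
  ext i j
  fin_cases i <;> fin_cases j <;> simp [uU]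

/-- the unit of `GL₂(k)` with matrix `u_x` -/
def gbbU (x : k) : GL (Fin 2) k :=
  ⟨uU x, uU (-x), by rw [gbb_uU_mul, add_neg_cancel, gbb_uU_zero],
    by rw [gbb_uU_mul, neg_add_cancel, gbb_uU_zero]⟩

@[simp] theorem gbbU_val (x : k) : (gbbU x).1 = uU x := rfl

theorem gbbU_mul (x y : k) : gbbU x * gbbU y = gbbU (x + y) :=
  Units.ext (gbb_uU_mul x y)

theorem gbbU_zero : gbbU (0 : k) = 1 := Units.ext gbb_uU_zero

theorem gbb_eq_gbbU {g : GL (Fin 2) k} {x : k} (h : g.1 = uU x) : g = gbbU x :=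
  Units.ext h

theorem gbb_mem_of_xset {G : Subgroup (GL (Fin 2) k)} {x : k} (hx : x ∈ Xset G) :
    gbbU x ∈ G := by
  obtain ⟨g, hg, hgx⟩ := hx
  rwa [← gbb_eq_gbbU hgx]

theorem gbb_xset_of_mem {G : Subgroup (GL (Fin 2) k)} {x : k} (hx : gbbU x ∈ G) :
    x ∈ Xset G := ⟨gbbU x, hx, rfl⟩

theorem gbb_xset_add {G : Subgroup (GL (Fin 2) k)} {x y : k} (hx : x ∈ Xset G)
    (hy : y ∈ Xset G) : x + y ∈ Xset G := by
  apply gbb_xset_of_mem
  rw [← gbbU_mul]
  exact G.mul_mem (gbb_mem_of_xset hx) (gbb_mem_of_xset hy)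

theorem gbb_xset_zero (G : Subgroup (GL (Fin 2) k)) : (0 : k) ∈ Xset G := by
  apply gbb_xset_of_mem
  rw [gbbU_zero]
  exact G.one_mem

theorem gbb_xset_one {G : Subgroup (GL (Fin 2) k)} (h : ∃ g ∈ G, g.1 = uU 1) :
    (1 : k) ∈ Xset G := h

/-- a trace-zero matrix in coordinates -/
theorem gbb_eta (m : M2 k) (h : m.trace = 0) : m = !![m 0 0, m 0 1; m 1 0, - m 0 0] := by
  have h11 : m 1 1 = - m 0 0 := by
    rw [Matrix.trace_fin_two] at h
    linear_combination h
  ext i j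
  fin_cases i <;> fin_cases j <;> simp [h11]

theorem gbb_act_one (m : M2 k) : act (1 : M2 k) m = m := by
  simp [act]

theorem gbb_psi_one {G : Subgroup (GL (Fin 2) k)} {ψ : GL (Fin 2) k → M2 k}
    (h : IsCocOn G ψ) : ψ 1 = 0 := by
  have := h.2 1 G.one_mem 1 G.one_mem
  rw [mul_one, Units.val_one, gbb_act_one] at this
  exact left_eq_add.mp this

/-- the action of `u_x` on a trace-zero matrix, in coordinates -/
theorem gbb_act_uU (x p q r : k) :
    act (uU x) (!![p, q; r, -p] : M2 k) =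
      !![p + x * r, q - 2 * x * p - x ^ 2 * r; r, -(p + x * r)] := by
  have := gbb_act_upper (1 : k) x 1 p q r (-p)
  rw [show (uU x : M2 k) = !![1, x; 0, 1] from rfl, this]
  ext i j
  fin_cases i <;> fin_cases j <;> simp <;> ring

/-- the cocycle relation on the upper unipotent elements, in coordinates -/
theorem gbb_coc_uU {G : Subgroup (GL (Fin 2) k)} {ψ : GL (Fin 2) k → M2 k}
    (h : IsCocOn G ψ) {x y : k} (hx : x ∈ Xset G) (hy : y ∈ Xset G) :
    ψ (gbbU (x + y)) 1 0 = ψ (gbbU x) 1 0 + ψ (gbbU y) 1 0 ∧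
    ψ (gbbU (x + y)) 0 0 = ψ (gbbU x) 0 0 + ψ (gbbU y) 0 0 + x * ψ (gbbU y) 1 0 ∧
    ψ (gbbU (x + y)) 0 1 = ψ (gbbU x) 0 1 + ψ (gbbU y) 0 1 - 2 * x * ψ (gbbU y) 0 0
      - x ^ 2 * ψ (gbbU y) 1 0 := by
  have hgx := gbb_mem_of_xset hx
  have hgy := gbb_mem_of_xset hy
  have key := h.2 _ hgx _ hgy
  rw [gbbU_mul, gbbU_val, gbb_eta (ψ (gbbU y)) (h.1 _ hgy), gbb_act_uU] at key
  refine ⟨?_, ?_, ?_⟩
  · have := congrFun (congrFun key 1) 0
    simpa using this
  · have := congrFun (congrFun key 0) 0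
    simp at this
    rw [this]; ring
  · have := congrFun (congrFun key 0) 1
    simp at this
    rw [this]; ring

end Fermat.Agent.TW.G.Sel
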