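import Fermat.Agent.TW.G.BorelBasic

/-!
# TW-G / P7b G-borel-2 (helper41): invariance of the class on `U` under the Borel subgroup

`stmtBorelT : StmtBorelT`.  For `t = [[a,b],[0,d]] ∈ G` and `u = u_x ∈ G` one has
`t u t⁻¹ = u_{(a/d)x}` and `ψ(t u t⁻¹) + (t u t⁻¹)⋆ψ(t) = ψ(t) + t⋆ψ(u)`.
The `f`-component gives `c (a − d³) = 0`; if `c = 0` the `h`-component gives `ψ(t)_f = 0` and
the `e`-component gives `α((a/d)x) = a² α(x) + l x` with `l = 2 ψ(t)_h a/d`.
Names `gbt_*`.  Mathlib only.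
-/

set_option autoImplicit false

namespace Fermat.Agent.TW.G.Sel

open Matrix

variable {k : Type} [Field k]

/-- the normal form of `ψ(u_x)` as an explicit matrix -/
theorem gbt_form (c x ax : k) :
    c • (x • eF + (x ^ 2 / 2) • eH - (x ^ 3 / 3) • eE) + ax • eE =
      (!![c * (x ^ 2 / 2), ax - c * (x ^ 3 / 3); c * x, -(c * (x ^ 2 / 2))] : M2 k) := by
  ext i j
  fin_cases i <;> fin_cases j <;> simp [eE, eH, eF]
  ring

/-- an upper triangular invertible matrix in coordinates -/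
theorem gbt_upper (t : GL (Fin 2) k) (h : t.1 1 0 = 0) :
    t.1 = !![t.1 0 0, t.1 0 1; 0, t.1 1 1] ∧ t.1 0 0 ≠ 0 ∧ t.1 1 1 ≠ 0 := by
  have e : t.1 = !![t.1 0 0, t.1 0 1; 0, t.1 1 1] := by
    ext i j
    fin_cases i <;> fin_cases j <;> simp [h]
  have hdet : t.1.det ≠ 0 := by
    have := Matrix.isUnits_det_units t
    exact this.ne_zero
  rw [Matrix.det_fin_two, h, mul_zero, sub_zero] at hdet
  exact ⟨e, left_ne_zero_of_mul hdet, right_ne_zero_of_mul hdet⟩

/-- conjugation of `u_x` by an upper triangular element -/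
theorem gbt_conj {G : Subgroup (GL (Fin 2) k)} (t : GL (Fin 2) k) (ht : t ∈ G)
    (h : t.1 1 0 = 0) {x : k} (hx : x ∈ Xset G) :
    gbbU (t.1 0 0 / t.1 1 1 * x) ∈ G ∧ gbbU (t.1 0 0 / t.1 1 1 * x) * t = t * gbbU x := by
  obtain ⟨e, ha, hd⟩ := gbt_upper t h
  have hcomm : gbbU (t.1 0 0 / t.1 1 1 * x) * t = t * gbbU x := by
    apply Units.ext
    rw [Units.val_mul, Units.val_mul, gbbU_val, gbbU_val]
    generalize t.1 0 0 = a at *
    generalize t.1 0 1 = b at *
    generalize t.1 1 1 = d at *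
    rw [e]
    ext i j
    fin_cases i <;> fin_cases j <;> simp [uU, Matrix.mul_apply, Fin.sum_univ_two]
    field_simp
    ring
  refine ⟨?_, hcomm⟩
  have : gbbU (t.1 0 0 / t.1 1 1 * x) = t * gbbU x * t⁻¹ := by
    rw [← hcomm, mul_assoc, mul_inv_cancel, mul_one]
  rw [this]
  exact G.mul_mem (G.mul_mem ht (gbb_mem_of_xset hx)) (G.inv_mem ht)

/-- the three coordinate equations of the cocycle rule for `t u_x = u_{x'} t` -/
theorem gbt_entries {G : Subgroup (GL (Fin 2) k)} {ψ : GL (Fin 2) k → M2 k}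
    (hψ : IsCocOn G ψ) (c : k) (α : k → k)
    (hform : ∀ g ∈ G, ∀ x : k, g.1 = uU x →
        ψ g = c • (x • eF + (x ^ 2 / 2) • eH - (x ^ 3 / 3) • eE) + α x • eE)
    (t : GL (Fin 2) k) (ht : t ∈ G) (h : t.1 1 0 = 0) {x : k} (hx : x ∈ Xset G) :
    c * (t.1 0 0 / t.1 1 1 * x) = t.1 1 1 * t.1 1 1 * (c * x) ∧
    (c = 0 → (t.1 0 0 / t.1 1 1 * x) * ψ t 1 0 = 0 ∧
      α (t.1 0 0 / t.1 1 1 * x) = t.1 0 0 ^ 2 * α x
        + 2 * (t.1 0 0 / t.1 1 1 * x) * ψ t 0 0
        + (t.1 0 0 / t.1 1 1 * x) ^ 2 * ψ t 1 0) := by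
  obtain ⟨e, ha, hd⟩ := gbt_upper t h
  obtain ⟨hmem, hcomm⟩ := gbt_conj t ht h hx
  have hgx := gbb_mem_of_xset hx
  have k1 := hψ.2 _ ht _ hgx
  have k2 := hψ.2 _ hmem _ ht
  rw [hcomm] at k2
  have key := k2.symm.trans k1
  rw [hform _ hmem _ rfl, hform _ hgx _ rfl, gbt_form, gbt_form, gbbU_val,
    gbb_eta (ψ t) (hψ.1 _ ht), gbb_act_uU] at key
  generalize ψ t 0 0 = τh at key ⊢
  generalize ψ t 0 1 = τe at key ⊢
  generalize ψ t 1 0 = τf at key ⊢
  generalize α (t.1 0 0 / t.1 1 1 * x) = αx' at key ⊢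
  generalize α x = αx at key ⊢
  generalize t.1 0 0 / t.1 1 1 * x = x' at key ⊢
  rw [e, gbb_act_upper] at key
  have e10 := congrFun (congrFun key 1) 0
  have e00 := congrFun (congrFun key 0) 0
  have e01 := congrFun (congrFun key 0) 1
  simp at e10 e00 e01
  refine ⟨?_, ?_⟩
  · linear_combination e10
  · intro hc
    subst hc
    simp at e00 e01
    refine ⟨?_, ?_⟩
    · exact mul_eq_zero.mpr e00
    · linear_combination e01

/-- (P7b, G-borel-2) invariance of the class on `U` under the upper triangular elements. -/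
theorem stmtBorelT : StmtBorelT := by
  intro p _ k _ _ _ _ G hG ψ hψ c α hform t ht h
  obtain ⟨e, ha, hd⟩ := gbt_upper t h
  have h1 : (1 : k) ∈ Xset G := gbb_xset_one hG
  refine ⟨?_, ?_⟩
  · have := (gbt_entries hψ c α hform t ht h h1).1
    field_simp at this
    linear_combination this
  · intro hc
    have hτf : ψ t 1 0 = 0 := by
      have := ((gbt_entries hψ c α hform t ht h h1).2 hc).1
      rw [mul_one] at this
      rcases mul_eq_zero.mp this with h0 | h0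
      · exact absurd h0 (div_ne_zero ha hd)
      · exact h0
    refine ⟨2 * (t.1 0 0 / t.1 1 1) * ψ t 0 0, ?_⟩
    intro x hx
    have := ((gbt_entries hψ c α hform t ht h hx).2 hc).2
    rw [this, hτf]
    ring

end Fermat.Agent.TW.G.Sel
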