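import Fermat.Agent.TW.G.BorelBasic

/-!
# TW-G / P7a G-borel-1 (helper41): normal form of a cocycle on the upper unipotent subgroup

`stmtBorelU : StmtBorelU`.  For `x ∈ X = Xset G` write `ψ(u_x) = α(x) e + β(x) h + γ(x) f`.
The cocycle rule gives `γ` additive, `β(x+y) = β(x) + β(y) + x γ(y)`,
`α(x+y) = α(x) + α(y) − 2xβ(y) − x²γ(y)`; symmetry in `(x, y)` and `1 ∈ X` give `γ = c x`,
`β = c x²/2 + b x`, and `α + c x³/3 + b x²` additive (`p = 3` forces `c = 0`).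
Names `gbu_*`.  Mathlib only.
-/

set_option autoImplicit false

namespace Fermat.Agent.TW.G.Sel

open Matrix

variable {k : Type} [Field k]

/-- abstract form of the computation: three functions on an additive set `X ∋ 1`;
`i2` is the inverse of `2`. -/
theorem gbu_shape (i2 : k) (h2i : 2 * i2 = 1) (X : Set k) (h1 : (1 : k) ∈ X)
    (A B C : k → k)
    (hB : ∀ x ∈ X, ∀ y ∈ X, B (x + y) = B x + B y + x * C y)
    (hA : ∀ x ∈ X, ∀ y ∈ X, A (x + y) = A x + A y - 2 * x * B y - x ^ 2 * C y) :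
    (∀ x ∈ X, C x = C 1 * x) ∧
    (∀ x ∈ X, B x = C 1 * x ^ 2 * i2 + (B 1 - C 1 * i2) * x) ∧
    (∀ x ∈ X, ∀ y ∈ X, A (x + y) = A x + A y - C 1 * (x * y * (x + y))
      - 2 * (B 1 - C 1 * i2) * (x * y)) := by
  have hCx : ∀ x ∈ X, C x = C 1 * x := by
    intro x hx
    have e1 := hB x hx 1 h1
    have e2 := hB 1 h1 x hx
    rw [add_comm 1 x] at e2
    linear_combination e1 - e2
  have hBx : ∀ x ∈ X, B x = C 1 * x ^ 2 * i2 + (B 1 - C 1 * i2) * x := by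
    intro x hx
    have e1 := hA x hx 1 h1
    have e2 := hA 1 h1 x hx
    rw [add_comm 1 x] at e2
    rw [hCx x hx] at e2
    linear_combination i2 * (e2 - e1) - (B x - B 1 * x) * h2i
  refine ⟨hCx, hBx, ?_⟩
  intro x hx y hy
  rw [hA x hx y hy, hBx y hy, hCx y hy]
  linear_combination (-(C 1 * x * y ^ 2)) * h2i

/-- in characteristic `3` the cubic term vanishes -/
theorem gbu_char_three (i2 : k) (h2i : 2 * i2 = 1) (h3 : (3 : k) = 0) (X : Set k)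
    (h1 : (1 : k) ∈ X) (hadd : ∀ x ∈ X, ∀ y ∈ X, x + y ∈ X)
    (A B C : k → k) (hA0 : A 0 = 0)
    (hB : ∀ x ∈ X, ∀ y ∈ X, B (x + y) = B x + B y + x * C y)
    (hA : ∀ x ∈ X, ∀ y ∈ X, A (x + y) = A x + A y - 2 * x * B y - x ^ 2 * C y) :
    C 1 = 0 := by
  obtain ⟨-, -, hA'⟩ := gbu_shape i2 h2i X h1 A B C hB hA
  have h11 : (1 : k) + 1 ∈ X := hadd 1 h1 1 h1
  have e1 := hA' 1 h1 1 h1
  have e2 := hA' (1 + 1) h11 1 h1
  have e3 : (1 : k) + 1 + 1 = 0 := by linear_combination h3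
  rw [e3, hA0] at e2
  rw [e1] at e2
  generalize B 1 - C 1 * i2 = b at e2
  linear_combination (-C 1) * h2i + i2 * e2 + (A 1 - 2 * b) * i2 * h3

/-- (P7a, G-borel-1) normal form of a cocycle on the upper unipotent subgroup. -/
theorem stmtBorelU : StmtBorelU := by
  intro p _ k _ _ _ hp2 G hG ψ hψ
  have h2 : (2 : k) ≠ 0 := by
    intro h
    have h' : ((2 : ℕ) : k) = 0 := by exact_mod_cast h
    rw [CharP.cast_eq_zero_iff k p] at h'
    have hp : p.Prime := Fact.out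
    have := (Nat.prime_dvd_prime_iff_eq hp Nat.prime_two).mp h'
    exact hp2 this
  have h2i : (2 : k) * (2 : k)⁻¹ = 1 := mul_inv_cancel₀ h2
  have h1 : (1 : k) ∈ Xset G := gbb_xset_one hG
  have hadd : ∀ x ∈ Xset G, ∀ y ∈ Xset G, x + y ∈ Xset G :=
    fun x hx y hy => gbb_xset_add hx hy
  have hB : ∀ x ∈ Xset G, ∀ y ∈ Xset G, ψ (gbbU (x + y)) 0 0 =
      ψ (gbbU x) 0 0 + ψ (gbbU y) 0 0 + x * ψ (gbbU y) 1 0 :=
    fun x hx y hy => (gbb_coc_uU hψ hx hy).2.1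
  have hA : ∀ x ∈ Xset G, ∀ y ∈ Xset G, ψ (gbbU (x + y)) 0 1 =
      ψ (gbbU x) 0 1 + ψ (gbbU y) 0 1 - 2 * x * ψ (gbbU y) 0 0 - x ^ 2 * ψ (gbbU y) 1 0 :=
    fun x hx y hy => (gbb_coc_uU hψ hx hy).2.2
  have hA0 : ψ (gbbU (0 : k)) 0 1 = 0 := by
    rw [gbbU_zero, gbb_psi_one hψ]
    rfl
  obtain ⟨hCx, hBx, hA'⟩ := gbu_shape (2 : k)⁻¹ h2i (Xset G) h1
    (fun x => ψ (gbbU x) 0 1) (fun x => ψ (gbbU x) 0 0) (fun x => ψ (gbbU x) 1 0) hB hA
  have hc3 : ψ (gbbU (1 : k)) 1 0 = 0 ∨ (3 : k) ≠ 0 := by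
    by_cases h3 : (3 : k) = 0
    · exact Or.inl (gbu_char_three (2 : k)⁻¹ h2i h3 (Xset G) h1 hadd
        (fun x => ψ (gbbU x) 0 1) (fun x => ψ (gbbU x) 0 0) (fun x => ψ (gbbU x) 1 0)
        hA0 hB hA)
    · exact Or.inr h3
  generalize hc : ψ (gbbU (1 : k)) 1 0 = c at hCx hBx hA' hc3
  generalize hb : ψ (gbbU (1 : k)) 0 0 - c * (2 : k)⁻¹ = b at hBx hA'
  refine ⟨b • eF, c, fun x => ψ (gbbU x) 0 1 + c * (x ^ 3 / 3) + b * x ^ 2, ?_, hc3, ?_, ?_⟩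
  · simp [eF, Matrix.trace_fin_two]
  · intro x hx y hy
    show ψ (gbbU (x + y)) 0 1 + c * ((x + y) ^ 3 / 3) + b * (x + y) ^ 2 =
      ψ (gbbU x) 0 1 + c * (x ^ 3 / 3) + b * x ^ 2 +
        (ψ (gbbU y) 0 1 + c * (y ^ 3 / 3) + b * y ^ 2)
    rw [hA' x hx y hy]
    rcases hc3 with h0 | h3
    · rw [h0]; ring
    · have h3i : (3 : k) * (3 : k)⁻¹ = 1 := mul_inv_cancel₀ h3
      simp only [div_eq_mul_inv]
      linear_combination (c * x * y * (x + y)) * h3i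
  · intro g hg x hgx
    have hxX : x ∈ Xset G := ⟨g, hg, hgx⟩
    have hgU : g = gbbU x := gbb_eq_gbbU hgx
    have htr : (ψ (gbbU x)).trace = 0 := hψ.1 _ (gbb_mem_of_xset hxX)
    have hBx' := hBx x hxX
    have hCx' := hCx x hxX
    have hm : (b • eF : M2 k) = !![0, 0; b, -0] := by
      ext i j
      fin_cases i <;> fin_cases j <;> simp [eF]
    rw [hgx, hgU, gbb_eta _ htr, hm, gbb_act_uU, hBx', hCx']
    ext i j
    fin_cases i <;> fin_cases j <;> simp [eE, eH, eF, div_eq_mul_inv] <;> ring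

end Fermat.Agent.TW.G.Sel
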