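import Fermat.Agent.TW.G.Plan

/-!
# TW-G / P6 G-syl (helper64): restriction to a subgroup of index prime to `p` is injective on
`H¹(G, ad⁰(1))`, for cocycles given as functions on `GL₂(k)`.
-/

set_option autoImplicit false

namespace Fermat.Agent.TW.G.Sel

open Matrix

variable {k : Type} [Field k]

theorem gsyl_act_add (g m n : M2 k) : act g (m + n) = act g m + act g n := by
  simp [act, mul_add, add_mul]

theorem gsyl_act_sub (g m n : M2 k) : act g (m - n) = act g m - act g n := by
  simp [act, mul_sub, sub_mul]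

theorem gsyl_act_neg (g m : M2 k) : act g (-m) = -act g m := by
  simp [act]

theorem gsyl_act_zero (g : M2 k) : act g (0 : M2 k) = 0 := by
  simp [act]

theorem gsyl_act_smul (g : M2 k) (c : k) (m : M2 k) : act g (c • m) = c • act g m := by
  simp [act]

theorem gsyl_act_mul (g h m : M2 k) : act (g * h) m = act g (act h m) := by
  simp only [act, Matrix.adjugate_mul_distrib, mul_assoc]

theorem gsyl_act_one (m : M2 k) : act (1 : M2 k) m = m := by
  simp [act]

theorem gsyl_act_sum {ι : Type} (s : Finset ι) (g : M2 k) (f : ι → M2 k) :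
    act g (∑ i ∈ s, f i) = ∑ i ∈ s, act g (f i) := by
  simp [act, Finset.mul_sum, Finset.sum_mul]

theorem gsyl_trace_act (g m : M2 k) : (act g m).trace = g.det * m.trace := by
  unfold act
  rw [Matrix.trace_mul_comm, ← mul_assoc, Matrix.adjugate_mul, Matrix.smul_mul, one_mul,
    Matrix.trace_smul, smul_eq_mul]

theorem gsyl_trace_act_zero (g m : M2 k) (hm : m.trace = 0) : (act g m).trace = 0 := by
  rw [gsyl_trace_act, hm, mul_zero]

/-- Subtracting a coboundary from a cocycle gives a cocycle. -/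
theorem gsyl_isCocOn_sub (G : Subgroup (GL (Fin 2) k)) (ψ : GL (Fin 2) k → M2 k)
    (hψ : IsCocOn G ψ) (m : M2 k) (hm : m.trace = 0) :
    IsCocOn G (fun g => ψ g - (act g.1 m - m)) := by
  refine ⟨fun g hg => ?_, fun g hg h hh => ?_⟩
  · simp only [Matrix.trace_sub, hψ.1 g hg, gsyl_trace_act_zero _ _ hm, hm, sub_zero]
  · simp only [hψ.2 g hg h hh, Units.val_mul, gsyl_act_mul, gsyl_act_sub]
    abel

/-- A cocycle vanishing on `H` is constant on the left cosets of `H`. -/
theorem gsyl_const_coset (G H : Subgroup (GL (Fin 2) k)) (hHG : H ≤ G)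
    (ψ : GL (Fin 2) k → M2 k) (hψ : IsCocOn G ψ) (h0 : ∀ h ∈ H, ψ h = 0)
    (g : GL (Fin 2) k) (hg : g ∈ G) (h : GL (Fin 2) k) (hh : h ∈ H) : ψ (g * h) = ψ g := by
  rw [hψ.2 g hg h (hHG hh), h0 h hh, gsyl_act_zero, add_zero]

/-- Averaging: a cocycle on `G` vanishing on a subgroup `H` of index invertible in `k` is a
coboundary. -/
theorem gsyl_of_vanish (p : ℕ) [Fact p.Prime] [Finite k] [CharP k p]
    (G H : Subgroup (GL (Fin 2) k)) (hHG : H ≤ G) (hidx : ¬ p ∣ (H.subgroupOf G).index)
    (ψ : GL (Fin 2) k → M2 k) (hψ : IsCocOn G ψ) (h0 : ∀ h ∈ H, ψ h = 0) :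
    IsCobOn G ψ := by
  classical
  haveI : Finite (GL (Fin 2) k) := inferInstance
  haveI : Fintype (↥G ⧸ H.subgroupOf G) := Fintype.ofFinite _
  -- the function induced on the cosets
  let f : (↥G ⧸ H.subgroupOf G) → M2 k :=
    Quotient.lift (s := QuotientGroup.leftRel (H.subgroupOf G)) (fun g : ↥G => ψ g.1) (by
      intro a b hab
      have hab' : a⁻¹ * b ∈ H.subgroupOf G := QuotientGroup.leftRel_apply.mp hab
      have hb : (b : GL (Fin 2) k) = a.1 * (a⁻¹ * b : ↥G).1 := by
        simp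
      show ψ a.1 = ψ b.1
      rw [hb]
      exact (gsyl_const_coset G H hHG ψ hψ h0 a.1 a.2 _ (Subgroup.mem_subgroupOf.mp hab')).symm)
  have hf : ∀ g : ↥G, f (QuotientGroup.mk g) = ψ g.1 := fun g => rfl
  set n : ℕ := (H.subgroupOf G).index with hn
  have hn0 : (n : k) ≠ 0 := by
    intro h
    exact hidx ((CharP.cast_eq_zero_iff k p n).mp h)
  have hcard : Fintype.card (↥G ⧸ H.subgroupOf G) = n := by
    rw [hn, Subgroup.index, Nat.card_eq_fintype_card]
  set S : M2 k := ∑ y : ↥G ⧸ H.subgroupOf G, f y with hS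
  have htrf : ∀ y, (f y).trace = 0 := by
    intro y
    induction y using QuotientGroup.induction_on with
    | H g => rw [hf]; exact hψ.1 g.1 g.2
  have hStr : S.trace = 0 := by
    rw [hS, Matrix.trace_sum]
    exact Finset.sum_eq_zero (fun y _ => htrf y)
  -- the key identity
  have key : ∀ x : ↥G, S = (n : k) • ψ x.1 + act x.1.1 S := by
    intro x
    have h1 : ∀ y : ↥G ⧸ H.subgroupOf G, f (x • y) = ψ x.1 + act x.1.1 (f y) := by
      intro y
      induction y using QuotientGroup.induction_on with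
      | H g =>
        have : x • (QuotientGroup.mk g : ↥G ⧸ H.subgroupOf G) = QuotientGroup.mk (x * g) := rfl
        rw [this, hf, hf]
        exact hψ.2 x.1 x.2 g.1 g.2
    have h2 : ∑ y : ↥G ⧸ H.subgroupOf G, f (x • y) = S := by
      rw [hS]
      exact Fintype.sum_equiv (MulAction.toPerm x) _ _ (fun y => rfl)
    have h3 : ∑ y : ↥G ⧸ H.subgroupOf G, f (x • y) = (n : k) • ψ x.1 + act x.1.1 S := by
      simp only [h1, Finset.sum_add_distrib, Finset.sum_const, Finset.card_univ, hcard,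
        ← gsyl_act_sum]
      rw [← Nat.cast_smul_eq_nsmul k]
    rw [← h3, h2]
  refine ⟨-((n : k)⁻¹ • S), ?_, fun g hg => ?_⟩
  · rw [Matrix.trace_neg, Matrix.trace_smul, hStr, smul_zero, neg_zero]
  · have hk := key ⟨g, hg⟩
    simp only at hk
    have h3 : (n : k) • ψ g = S - act g.1 S := by
      rw [eq_sub_iff_add_eq]; exact hk.symm
    have h4 : ψ g = (n : k)⁻¹ • (S - act g.1 S) := by
      rw [← h3, smul_smul, inv_mul_cancel₀ hn0, one_smul]
    rw [h4, gsyl_act_neg, gsyl_act_smul, smul_sub]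
    abel

/-- (P6, G-syl) -/
theorem stmtSyl : StmtSyl := by
  intro p _ k _ _ _ G H hHG hidx ψ hψ ⟨m, hm, hcob⟩
  have hcoc := gsyl_isCocOn_sub G ψ hψ m hm
  have h0 : ∀ h ∈ H, (fun g : GL (Fin 2) k => ψ g - (act g.1 m - m)) h = 0 := by
    intro h hh
    simp only [hcob h hh, sub_self]
  obtain ⟨m', hm', hcob'⟩ := gsyl_of_vanish p G H hHG hidx _ hcoc h0
  refine ⟨m + m', by rw [Matrix.trace_add, hm, hm', add_zero], fun g hg => ?_⟩
  have := hcob' g hg
  simp only at this
  rw [gsyl_act_add]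
  rw [sub_eq_iff_eq_add] at this
  rw [this]
  abel

end Fermat.Agent.TW.G.Sel
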