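import Fermat.Agent.TW.G.Plan
import Fermat.Agent.TW.G.Syl

/-!
# TW-G / P10 G-concl (helper64): the normalised vanishing theorem from the pieces

`StmtSyl → StmtIdx → StmtBorelU → StmtBorelT → StmtFrattini → StmtDickson → StmtFinNorm`.
-/

set_option autoImplicit false

namespace Fermat.Agent.TW.G.Sel

open Matrix

variable {k : Type} [Field k]

theorem gconcl_uU_mul (x y : k) : uU x * uU y = uU (x + y) := by
  ext i j
  fin_cases i <;> fin_cases j <;> simp [uU, Matrix.mul_apply, Fin.sum_univ_two, add_comm]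

theorem gconcl_uU_zero : uU (0 : k) = 1 := by
  ext i j
  fin_cases i <;> fin_cases j <;> simp [uU]

/-- the parameters of the upper unipotent elements of `G`, as an additive subgroup -/
def gconclX (G : Subgroup (GL (Fin 2) k)) : AddSubgroup k where
  carrier := Xset G
  zero_mem' := ⟨1, G.one_mem, by rw [gconcl_uU_zero]; rfl⟩
  add_mem' := by
    rintro x y ⟨g, hg, hgx⟩ ⟨h, hh, hhy⟩
    exact ⟨g * h, G.mul_mem hg hh, by rw [Units.val_mul, hgx, hhy, gconcl_uU_mul]⟩
  neg_mem' := by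
    rintro x ⟨g, hg, hgx⟩
    refine ⟨g⁻¹, G.inv_mem hg, ?_⟩
    have h1 : g.1 * uU (-x) = 1 := by rw [hgx, gconcl_uU_mul, add_neg_cancel, gconcl_uU_zero]
    have h2 : (g⁻¹).1 * (g.1 * uU (-x)) = (g⁻¹).1 := by rw [h1, mul_one]
    rw [← mul_assoc, ← Units.val_mul, inv_mul_cancel, Units.val_one, one_mul] at h2
    exact h2.symm

theorem gconcl_mem_X (G : Subgroup (GL (Fin 2) k)) (x : k) : x ∈ gconclX G ↔ x ∈ Xset G :=
  Iff.rfl

/-- upper triangular elements of `G` act on `X` through `a/d` -/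
theorem gconcl_X_scale (G : Subgroup (GL (Fin 2) k)) (t : GL (Fin 2) k) (ht : t ∈ G)
    (ht0 : t.1 1 0 = 0) (x : k) (hx : x ∈ Xset G) : t.1 0 0 / t.1 1 1 * x ∈ Xset G := by
  obtain ⟨g, hg, hgx⟩ := hx
  have hdet : t.1.det ≠ 0 := by
    have := t.isUnit.map (Matrix.detMonoidHom (n := Fin 2) (R := k))
    exact this.ne_zero
  rw [Matrix.det_fin_two, ht0, mul_zero, sub_zero] at hdet
  have hd : t.1 1 1 ≠ 0 := right_ne_zero_of_mul hdet
  refine ⟨t * g * t⁻¹, G.mul_mem (G.mul_mem ht hg) (G.inv_mem ht), ?_⟩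
  have h1 : t.1 * uU x = uU (t.1 0 0 / t.1 1 1 * x) * t.1 := by
    ext i j
    fin_cases i <;> fin_cases j <;>
      simp [uU, Matrix.mul_apply, Fin.sum_univ_two, ht0]
    · field_simp
      ring
  rw [Units.val_mul, Units.val_mul, hgx, h1, mul_assoc, ← Units.val_mul, mul_inv_cancel,
    Units.val_one, mul_one]

/-- `α` is odd and vanishes at `0` -/
theorem gconcl_add_zero (X : AddSubgroup k) (α : k → k)
    (hadd : ∀ x ∈ X, ∀ y ∈ X, α (x + y) = α x + α y) : α 0 = 0 := by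
  have := hadd 0 X.zero_mem 0 X.zero_mem
  rw [add_zero] at this
  exact left_eq_add.mp this

theorem gconcl_add_neg (X : AddSubgroup k) (α : k → k)
    (hadd : ∀ x ∈ X, ∀ y ∈ X, α (x + y) = α x + α y) (x : k) (hx : x ∈ X) :
    α (-x) = -α x := by
  have := hadd x hx (-x) (X.neg_mem hx)
  rw [add_neg_cancel, gconcl_add_zero X α hadd] at this
  exact eq_neg_of_add_eq_zero_right this.symm

/-- the ring of multipliers of `(X, α)` -/
def gconclR (X : AddSubgroup k) (h1 : (1 : k) ∈ X) (α : k → k)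
    (hadd : ∀ x ∈ X, ∀ y ∈ X, α (x + y) = α x + α y) : Subring k where
  carrier := {s | s ∈ X ∧ ∀ x ∈ X, s * x ∈ X ∧ α (s * x) = s * α x + (α s - s * α 1) * x}
  zero_mem' := by
    refine ⟨X.zero_mem, fun x _ => ?_⟩
    simp only [zero_mul, gconcl_add_zero X α hadd, sub_zero, add_zero, and_true]
    exact X.zero_mem
  one_mem' := by
    refine ⟨h1, fun x hx => ?_⟩
    simp only [one_mul, sub_self, zero_mul, add_zero, and_true]
    exact hx
  add_mem' := by
    rintro s s' ⟨hs, hsR⟩ ⟨hs', hsR'⟩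
    refine ⟨X.add_mem hs hs', fun x hx => ?_⟩
    obtain ⟨h1x, h1α⟩ := hsR x hx
    obtain ⟨h2x, h2α⟩ := hsR' x hx
    rw [add_mul]
    refine ⟨X.add_mem h1x h2x, ?_⟩
    rw [hadd _ h1x _ h2x, h1α, h2α, hadd _ hs _ hs']
    ring
  neg_mem' := by
    rintro s ⟨hs, hsR⟩
    refine ⟨X.neg_mem hs, fun x hx => ?_⟩
    obtain ⟨h1x, h1α⟩ := hsR x hx
    rw [neg_mul]
    refine ⟨X.neg_mem h1x, ?_⟩
    rw [gconcl_add_neg X α hadd _ h1x, h1α, gconcl_add_neg X α hadd _ hs]
    ring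
  mul_mem' := by
    rintro s s' ⟨hs, hsR⟩ ⟨hs', hsR'⟩
    refine ⟨(hsR s' hs').1, fun x hx => ?_⟩
    obtain ⟨h2x, h2α⟩ := hsR' x hx
    obtain ⟨h3x, h3α⟩ := hsR _ h2x
    rw [mul_assoc]
    refine ⟨h3x, ?_⟩
    rw [h3α, h2α, (hsR s' hs').2]
    ring

theorem gconcl_mem_R (X : AddSubgroup k) (h1 : (1 : k) ∈ X) (α : k → k)
    (hadd : ∀ x ∈ X, ∀ y ∈ X, α (x + y) = α x + α y) (s : k) :
    s ∈ gconclR X h1 α hadd ↔
      s ∈ X ∧ ∀ x ∈ X, s * x ∈ X ∧ α (s * x) = s * α x + (α s - s * α 1) * x :=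
  Iff.rfl

/-- a derivation of a finite field vanishes -/
theorem gconcl_R_linear [Finite k] (X : AddSubgroup k) (h1 : (1 : k) ∈ X) (α : k → k)
    (hadd : ∀ x ∈ X, ∀ y ∈ X, α (x + y) = α x + α y) (s : k)
    (hs : s ∈ gconclR X h1 α hadd) : α s = α 1 * s := by
  classical
  haveI : Fintype k := Fintype.ofFinite k
  have key : ∀ n : ℕ, α (s ^ (n + 1)) - s ^ (n + 1) * α 1 =
      ((n + 1 : ℕ) : k) * s ^ n * (α s - s * α 1) := by
    intro n
    induction n with
    | zero => simp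
    | succ n ih =>
      have hpow : s ^ (n + 1) ∈ gconclR X h1 α hadd := Subring.pow_mem _ hs _
      have h2 := (hs.2 (s ^ (n + 1)) hpow.1).2
      have h3 : s ^ (n + 1 + 1) = s * s ^ (n + 1) := pow_succ' s (n + 1)
      rw [h3, h2]
      have h4 : α (s ^ (n + 1)) = s ^ (n + 1) * α 1 +
          ((n + 1 : ℕ) : k) * s ^ n * (α s - s * α 1) := by
        rw [← ih]; ring
      rw [h4]
      push_cast
      ring
  have hN : 0 < Fintype.card k := Fintype.card_pos
  obtain ⟨n, hn⟩ : ∃ n, Fintype.card k = n + 1 := ⟨Fintype.card k - 1, by omega⟩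
  have h5 := key n
  rw [← hn, FiniteField.pow_card, FiniteField.cast_card_eq_zero, zero_mul, zero_mul] at h5
  rw [sub_eq_zero] at h5
  rw [h5, mul_comm]

/-- The abstract linearity statement: if enough multipliers act on `(X, α)`, `α` is linear. -/
theorem gconcl_linear_of_scaling [Finite k] (X : AddSubgroup k) (h1 : (1 : k) ∈ X)
    (α : k → k) (hadd : ∀ x ∈ X, ∀ y ∈ X, α (x + y) = α x + α y)
    (A : Set k) (hA : ∀ s ∈ A, ∀ x ∈ X, s * x ∈ X)
    (hAα : ∀ s ∈ A, ∃ l : k, ∀ x ∈ X, α (s * x) = s * α x + l * x)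
    (hA0 : (0 : k) ∉ A)
    (hcard : Nat.card X ≤ 2 * Nat.card A + 1) :
    ∀ x ∈ X, α x = α 1 * x := by
  classical
  set R := gconclR X h1 α hadd with hR
  have hAR : ∀ s ∈ A, s ∈ R := by
    intro s hs
    have hsX : s ∈ X := by simpa using hA s hs 1 h1
    obtain ⟨l, hl⟩ := hAα s hs
    have hl1 := hl 1 h1
    rw [mul_one, mul_one] at hl1
    refine ⟨hsX, fun x hx => ⟨hA s hs x hx, ?_⟩⟩
    rw [hl x hx, hl1]
    ring
  have hRX : R.toAddSubgroup ≤ X := fun s hs => hs.1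
  -- cardinalities
  have hdvd : Nat.card R.toAddSubgroup ∣ Nat.card X := AddSubgroup.card_dvd_of_le hRX
  have hins : insert (0 : k) A ⊆ (R : Set k) := by
    intro s hs
    rcases hs with rfl | hs
    · exact R.zero_mem
    · exact hAR s hs
  have hAfin : A.Finite := Set.toFinite A
  have hc1 : Nat.card A + 1 ≤ Nat.card R.toAddSubgroup := by
    have h2 : (insert (0 : k) A).ncard = A.ncard + 1 := Set.ncard_insert_of_notMem hA0 hAfin
    have h3 : (insert (0 : k) A).ncard ≤ (R : Set k).ncard :=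
      Set.ncard_le_ncard hins (Set.toFinite _)
    rw [h2] at h3
    rw [Nat.card_coe_set_eq]
    exact h3
  have hXpos : 0 < Nat.card X := Nat.card_pos
  have hRpos : 0 < Nat.card R.toAddSubgroup := Nat.card_pos
  have hcard_eq : Nat.card R.toAddSubgroup = Nat.card X := by
    obtain ⟨j, hj⟩ := hdvd
    have hj1 : j < 2 := by
      by_contra hcon
      have : 2 ≤ j := by omega
      have : 2 * Nat.card R.toAddSubgroup ≤ Nat.card R.toAddSubgroup * j := by
        rw [mul_comm]; exact Nat.mul_le_mul_left _ this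
      omega
    have hj0 : j ≠ 0 := by
      rintro rfl
      rw [mul_zero] at hj
      omega
    have : j = 1 := by omega
    rw [hj, this, mul_one]
  have hXR : ∀ x ∈ X, x ∈ R := by
    have h4 : (R.toAddSubgroup : Set k) = (X : Set k) := by
      apply Set.eq_of_subset_of_ncard_le hRX _ (Set.toFinite _)
      rw [← Nat.card_coe_set_eq, ← Nat.card_coe_set_eq]
      exact hcard_eq.ge
    intro x hx
    have : x ∈ (R.toAddSubgroup : Set k) := by rw [h4]; exact hx
    exact this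
  intro x hx
  exact gconcl_R_linear X h1 α hadd x (hXR x hx)

/-- elements of `Asq G` are the scaling factors `a/d` of determinant-one upper triangular
elements -/
theorem gconcl_asq_data (G : Subgroup (GL (Fin 2) k)) (s : k) (hs : s ∈ Asq G) :
    ∃ g ∈ G, g.1 1 0 = 0 ∧ g.1 0 0 * g.1 1 1 = 1 ∧ s = g.1 0 0 ^ 2 ∧
      g.1 0 0 / g.1 1 1 = s := by
  obtain ⟨g, hg, hg0, hdet, hs⟩ := hs
  rw [Matrix.det_fin_two, hg0, mul_zero, sub_zero] at hdet
  refine ⟨g, hg, hg0, hdet, hs, ?_⟩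
  have hd : g.1 1 1 ≠ 0 := right_ne_zero_of_mul_eq_one hdet
  rw [hs, div_eq_iff hd, pow_two, mul_assoc, hdet, mul_one]

theorem gconcl_asq_ne_zero (G : Subgroup (GL (Fin 2) k)) : (0 : k) ∉ Asq G := by
  intro h
  obtain ⟨g, -, -, hdet, hs, -⟩ := gconcl_asq_data G 0 h
  have ha : g.1 0 0 = 0 := by
    have := hs.symm
    exact pow_eq_zero_iff (n := 2) (by norm_num) |>.mp this
  rw [ha, zero_mul] at hdet
  exact zero_ne_one hdet

/-- `G` is not upper triangular -/
theorem gconcl_nontri (G : Subgroup (GL (Fin 2) k)) (hirr : NoEigenOn G) :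
    ∃ g ∈ G, g.1 1 0 ≠ 0 := by
  by_contra hcon
  have hall : ∀ g ∈ G, g.1 1 0 = 0 := by
    intro g hg
    by_contra h
    exact hcon ⟨g, hg, h⟩
  refine hirr ![1, 0] ?_ (fun g hg => ⟨algebraMap k (AlgebraicClosure k) (g.1 0 0), ?_⟩)
  · intro h
    have := congrFun h 0
    simp at this
  · ext i
    fin_cases i <;>
      simp [Matrix.mulVec, dotProduct, Fin.sum_univ_two, Matrix.map_apply, hall g hg]

theorem gconcl_zmod5 : ∀ x : ZMod 5, x ^ 2 - 2 ≠ 0 := by decide

/-- the constant `c` of a cocycle vanishes -/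
theorem gconcl_c_zero (p : ℕ) [Fact p.Prime] [Finite k] [CharP k p]
    (G : Subgroup (GL (Fin 2) k)) (hG : FinHyp p G) (hu1 : ∃ g ∈ G, g.1 = uU 1)
    (hFr : ∀ g ∈ G, ∃ t ∈ G, t.1 1 0 = 0 ∧ t.1.det = g.1.det)
    (hDk : Nat.card (Xset G) ≤ 2 * Nat.card (Asq G) + 1)
    (h3 : (3 : k) ≠ 0)
    (hT : ∀ t ∈ G, t.1 1 0 = 0 → t.1 0 0 = t.1 1 1 ^ 3) : False := by
  classical
  -- step 1: `Asq G ⊆ {1, -1}`
  have hsub : Asq G ⊆ ({1, -1} : Set k) := by
    intro s hs
    obtain ⟨g, hg, hg0, hdet, hs2, -⟩ := gconcl_asq_data G s hs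
    have had := hT g hg hg0
    have hd4 : g.1 1 1 ^ 4 = 1 := by
      rw [had] at hdet
      rw [← hdet]; ring
    have hss : s * s = 1 := by
      rw [hs2, had]
      have : (g.1 1 1 ^ 3) ^ 2 * (g.1 1 1 ^ 3) ^ 2 = (g.1 1 1 ^ 4) ^ 3 := by ring
      rw [this, hd4, one_pow]
    rcases mul_self_eq_one_iff.mp hss with h | h
    · left; exact h
    · right; exact h
  have hA2 : Nat.card (Asq G) ≤ 2 := by
    rw [Nat.card_coe_set_eq]
    calc (Asq G).ncard ≤ ({1, -1} : Set k).ncard := Set.ncard_le_ncard hsub (Set.toFinite _)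
      _ ≤ ({-1} : Set k).ncard + 1 := Set.ncard_insert_le _ _
      _ = 2 := by rw [Set.ncard_singleton]
  have hX5 : Nat.card (Xset G) ≤ 5 := by omega
  -- step 2: `p ≤ |X|`
  have h1X : (1 : k) ∈ gconclX G := hu1
  have hzle : AddSubgroup.zmultiples (1 : k) ≤ gconclX G :=
    (AddSubgroup.zmultiples_le).mpr h1X
  have hzcard : Nat.card (AddSubgroup.zmultiples (1 : k)) = p := by
    rw [Nat.card_zmultiples]
    exact CharP.eq k (CharP.addOrderOf_one k) (inferInstance : CharP k p)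
  have hXX : Nat.card (gconclX G) = Nat.card (Xset G) := rfl
  have hple : p ≤ Nat.card (Xset G) := by
    rw [← hzcard, ← hXX]
    exact Nat.le_of_dvd Nat.card_pos (AddSubgroup.card_dvd_of_le hzle)
  have hp2 : p ≠ 2 := hG.odd
  have hp3 : p ≠ 3 := by
    rintro rfl
    apply h3
    have := CharP.cast_eq_zero k 3
    exact_mod_cast this
  have hpp : p.Prime := Fact.out
  have hp5 : p = 5 := by
    have hle : p ≤ 5 := by omega
    have h2le := hpp.two_le
    interval_cases p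
    · exact absurd rfl hp2
    · exact absurd rfl hp3
    · exact absurd hpp (by decide)
    · rfl
  subst hp5
  -- step 3: `X = 𝔽₅`
  have hXz : ∀ x ∈ Xset G, x ∈ AddSubgroup.zmultiples (1 : k) := by
    have h4 : ((AddSubgroup.zmultiples (1 : k)) : Set k) = (gconclX G : Set k) := by
      apply Set.eq_of_subset_of_ncard_le hzle _ (Set.toFinite _)
      rw [← Nat.card_coe_set_eq, ← Nat.card_coe_set_eq]
      show Nat.card (gconclX G) ≤ Nat.card (AddSubgroup.zmultiples (1 : k))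
      rw [hzcard, hXX]
      exact hX5
    intro x hx
    have : x ∈ ((AddSubgroup.zmultiples (1 : k)) : Set k) := by rw [h4]; exact hx
    exact this
  -- step 4: an upper triangular element of determinant 2
  have h2ne : ((2 : ℤ) : k) ≠ 0 := by
    intro h
    have := (CharP.intCast_eq_zero_iff k 5 2).mp h
    omega
  obtain ⟨g, hg, hgdet⟩ := hG.det_surj 2 h2ne
  obtain ⟨t, ht, ht0, htdet⟩ := hFr g hg
  rw [hgdet, Matrix.det_fin_two, ht0, mul_zero, sub_zero] at htdet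
  have had := hT t ht ht0
  have hd0 : t.1 1 1 ≠ 0 := by
    intro h
    rw [h, mul_zero] at htdet
    exact h2ne htdet.symm
  have hd4 : t.1 1 1 ^ 4 = ((2 : ℤ) : k) := by
    rw [← htdet, had]; ring
  have hsc := gconcl_X_scale G t ht ht0 1 h1X
  rw [mul_one] at hsc
  have hd2 : t.1 0 0 / t.1 1 1 = t.1 1 1 ^ 2 := by
    rw [div_eq_iff hd0, had]; ring
  rw [hd2] at hsc
  obtain ⟨n, hn⟩ := AddSubgroup.mem_zmultiples_iff.mp (hXz _ hsc)
  have hn' : (n : k) = t.1 1 1 ^ 2 := by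
    rw [← hn]; simp
  have h5 : ((n ^ 2 - 2 : ℤ) : k) = 0 := by
    push_cast
    rw [hn']
    have : (t.1 1 1 ^ 2) ^ 2 = t.1 1 1 ^ 4 := by ring
    rw [this, hd4]
    push_cast
    ring
  have hdvd : ((5 : ℕ) : ℤ) ∣ n ^ 2 - 2 := (CharP.intCast_eq_zero_iff k 5 _).mp h5
  have hz : ((n ^ 2 - 2 : ℤ) : ZMod 5) = 0 :=
    (ZMod.intCast_zmod_eq_zero_iff_dvd _ 5).mpr hdvd
  push_cast at hz
  exact gconcl_zmod5 _ hz

theorem gconcl_act_uU_eH (x : k) : act (uU x) (eH : M2 k) - eH = (-2 * x) • eE := by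
  ext i j
  fin_cases i <;> fin_cases j <;>
    simp [act, uU, eH, eE, Matrix.mul_apply, Fin.sum_univ_two, Matrix.adjugate_fin_two]
  ring

theorem gconcl_trace_eH : (eH : M2 k).trace = 0 := by
  simp [eH, Matrix.trace_fin_two]

/-- (P10, G-concl) -/
theorem stmtConcl : StmtConcl := by
  intro hSyl hIdx hBU hBT hFr hDk p _ k _ _ _ G hG hu1 ψ hψ
  obtain ⟨U, hUG, hUmem, hUidx⟩ := hIdx p k G hu1
  refine hSyl p k G U hUG hUidx ψ hψ ?_
  obtain ⟨m, c, α, hm, hc3, hadd, hform⟩ := hBU p k hG.odd G hu1 ψ hψ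
  have hψ' := gsyl_isCocOn_sub G ψ hψ m hm
  have hform' : ∀ g ∈ G, ∀ x : k, g.1 = uU x →
      (fun g : GL (Fin 2) k => ψ g - (act g.1 m - m)) g =
        c • (x • eF + (x ^ 2 / 2) • eH - (x ^ 3 / 3) • eE) + α x • eE := by
    intro g hg x hx
    simp only
    rw [hform g hg x hx]
    abel
  have hT := hBT p k hG.odd G hu1 _ hψ' c α hform'
  have hnontri := gconcl_nontri G hG.irr
  have hcard := hDk p k hG.odd G hG.split hnontri
  have hc : c = 0 := by
    by_contra hc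
    have h3 : (3 : k) ≠ 0 := hc3.resolve_left hc
    refine gconcl_c_zero p G hG hu1 (hFr p k G hu1) hcard h3 (fun t ht ht0 => ?_)
    rcases mul_eq_zero.mp (hT t ht ht0).1 with h | h
    · exact absurd h hc
    · exact sub_eq_zero.mp h
  have h1X : (1 : k) ∈ gconclX G := hu1
  have hlin : ∀ x ∈ gconclX G, α x = α 1 * x := by
    refine gconcl_linear_of_scaling (gconclX G) h1X α hadd (Asq G) ?_ ?_
      (gconcl_asq_ne_zero G) hcard
    · intro s hs x hx
      obtain ⟨g, hg, hg0, -, -, hsc⟩ := gconcl_asq_data G s hs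
      rw [← hsc]
      exact gconcl_X_scale G g hg hg0 x hx
    · intro s hs
      obtain ⟨g, hg, hg0, -, hs2, hsc⟩ := gconcl_asq_data G s hs
      obtain ⟨l, hl⟩ := (hT g hg hg0).2 hc
      refine ⟨l, fun x hx => ?_⟩
      have := hl x hx
      rw [hsc, ← hs2] at this
      exact this
  refine ⟨m - (α 1 / 2) • eH, ?_, fun g hg => ?_⟩
  · rw [Matrix.trace_sub, Matrix.trace_smul, hm, gconcl_trace_eH, smul_zero, sub_zero]
  · obtain ⟨hgG, x, hx⟩ := (hUmem g).mp hg
    have hxX : x ∈ gconclX G := ⟨g, hgG, hx⟩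
    have h2 : (2 : k) ≠ 0 := by
      intro h
      have h' : ((2 : ℕ) : k) = 0 := by exact_mod_cast h
      have hdvd := (CharP.cast_eq_zero_iff k p 2).mp h'
      have hpp : p.Prime := Fact.out
      have := (Nat.prime_dvd_prime_iff_eq hpp Nat.prime_two).mp hdvd
      exact hG.odd this
    rw [hform g hgG x hx, hc, zero_smul, add_zero, hlin x hxX, gsyl_act_sub, gsyl_act_smul]
    have h5 := gconcl_act_uU_eH x
    rw [hx]
    have h6 : act (uU x) (eH : M2 k) = eH + (-2 * x) • eE := by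
      rw [← h5]; abel
    rw [h6, smul_add, smul_smul]
    have h7 : α 1 / 2 * (-2 * x) = -(α 1 * x) := by
      field_simp
    rw [h7, neg_smul]
    abel

end Fermat.Agent.TW.G.Sel
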