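/-
TW-G piece P8 G-frattini (helper87): every determinant of `G ≤ GL₂(k)` is the determinant of an
upper triangular element of `G`, as soon as `u_1 ∈ G`.

Proof: Frattini's argument.  `G₁ = G ∩ SL₂` is normal in `G`, the upper unipotent elements form
a Sylow `p`-subgroup `U` of `G₁` (`gidx_pgroup_unipotent`), so `G = N_G(U) · G₁`; an element
normalising `U` maps the unique line fixed by `u_1` to a line fixed by some `u_y ≠ 1`, i.e. to
itself, so it is upper triangular.
-/
import Fermat.Agent.TW.G.Idx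

set_option autoImplicit false
set_option linter.style.haveILetI false

namespace Fermat.Agent.TW.G.Sel

open Matrix

variable {k : Type} [Field k]

/-- `t u_1 = u_y t` with `y ≠ 0` forces `t` to be upper triangular. -/
theorem gfrat_upper_of_conj (t : M2 k) (y : k) (hy : y ≠ 0) (h : t * uU 1 = uU y * t) :
    t 1 0 = 0 := by
  have h1 := congrFun (congrFun h 0) 0
  simp [uU, Matrix.mul_apply, Fin.sum_univ_two] at h1
  rcases h1 with h1 | h1
  · exact absurd h1 hy
  · exact h1

/-- **P8 G-frattini**. -/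
theorem stmtFrattini : StmtFrattini := by
  intro p _ k _ _ _ G hex g hg
  obtain ⟨g₁, hg₁G, hg₁⟩ := hex
  classical
  haveI : Finite (GL (Fin 2) k) :=
    Finite.of_injective (fun g : GL (Fin 2) k => g.1) Units.val_injective
  -- the determinant on `G` and its kernel `N`
  let φ : G →* kˣ := (Matrix.GeneralLinearGroup.det).comp G.subtype
  have hφ : ∀ x : G, ((φ x : kˣ) : k) = x.1.1.det := fun x => rfl
  -- the upper unipotent elements of `N`
  let UN : Subgroup φ.ker := ((gidxU G).subgroupOf G).subgroupOf φ.ker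
  have hUNp : IsPGroup p UN := by
    rintro ⟨⟨⟨u, huG⟩, huN⟩, huU⟩
    have huU' : u ∈ gidxU G := huU
    obtain ⟨x, hx⟩ := huU'.2
    refine ⟨1, ?_⟩
    rw [pow_one]
    apply Subtype.ext
    apply Subtype.ext
    apply Subtype.ext
    apply Units.ext
    show (u ^ p).1 = 1
    rw [gidx_pow_val u x hx, CharP.cast_eq_zero, zero_mul, gidx_uU_zero]
  obtain ⟨Q, hQ⟩ := hUNp.exists_le_sylow
  -- the image of `Q` in `GL₂(k)` is a `p`-group containing `u_1`
  let Q' : Subgroup (GL (Fin 2) k) := ((Q : Subgroup φ.ker).map φ.ker.subtype).map G.subtype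
  have hQ'p : IsPGroup p Q' := (Q.isPGroup'.map φ.ker.subtype).map G.subtype
  have hg₁N : (⟨g₁, hg₁G⟩ : G) ∈ φ.ker := by
    rw [MonoidHom.mem_ker]
    apply Units.ext
    rw [hφ, Units.val_one]
    show g₁.1.det = 1
    rw [hg₁]
    simp [uU, Matrix.det_fin_two]
  have hg₁Q : (⟨⟨g₁, hg₁G⟩, hg₁N⟩ : φ.ker) ∈ (Q : Subgroup φ.ker) := by
    apply hQ
    show g₁ ∈ gidxU G
    exact ⟨hg₁G, 1, hg₁⟩
  have hg₁Q' : g₁ ∈ Q' :=
    Subgroup.mem_map_of_mem G.subtype
      (Subgroup.mem_map_of_mem φ.ker.subtype hg₁Q)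
  -- Frattini
  have hfrat := Sylow.normalizer_sup_eq_top Q
  have hmem : (⟨g, hg⟩ : G) ∈
      Subgroup.normalizer (((Q : Subgroup φ.ker).map φ.ker.subtype : Subgroup G) : Set G)
        ⊔ φ.ker := by
    rw [hfrat]
    exact Subgroup.mem_top _
  obtain ⟨t, ht, h, hh, hth⟩ := Subgroup.mem_sup_of_normal_right.mp hmem
  refine ⟨t.1, t.2, ?_, ?_⟩
  · -- `t` is upper triangular
    have h1 : t * ⟨g₁, hg₁G⟩ * t⁻¹ ∈ (Q : Subgroup φ.ker).map φ.ker.subtype :=
      (Subgroup.mem_normalizer_iff.mp ht _).mp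
        (Subgroup.mem_map_of_mem φ.ker.subtype hg₁Q)
    have h2 : t.1 * g₁ * t.1⁻¹ ∈ Q' := by
      have h3 := Subgroup.mem_map_of_mem G.subtype h1
      rw [map_mul, map_mul, map_inv] at h3
      exact h3
    obtain ⟨y, hy⟩ := gidx_pgroup_unipotent p Q' hQ'p g₁ hg₁Q' hg₁ _ h2
    have hy0 : y ≠ 0 := by
      rintro rfl
      rw [gidx_uU_zero] at hy
      have h3 : t.1 * g₁ * t.1⁻¹ = 1 := Units.ext hy
      have h4 : g₁ = 1 := by
        have := congrArg (fun z => t.1⁻¹ * z * t.1) h3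
        simpa [mul_assoc] using this
      rw [h4, Units.val_one] at hg₁
      have := congrFun (congrFun hg₁ 0) 1
      simp [uU] at this
    apply gfrat_upper_of_conj t.1.1 y hy0
    rw [← hg₁, ← hy]
    rw [← Units.val_mul, ← Units.val_mul]
    congr 1
    group
  · -- determinants
    have h1 : φ (t * h) = φ ⟨g, hg⟩ := by rw [hth]
    rw [map_mul, MonoidHom.mem_ker.mp hh, mul_one] at h1
    have h2 := congrArg (fun u : kˣ => (u : k)) h1
    exact h2

end Fermat.Agent.TW.G.Sel
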