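/-
TW-G piece P6' G-idx (helper87): the upper unipotent elements of `G ≤ GL₂(k)` form a subgroup
of index prime to `p`, as soon as `u_1 ∈ G`.

Proof: `U` is a `p`-group; a Sylow `p`-subgroup `Q ⊇ U` of `G` is a `p`-group acting on `k²`,
so it fixes a nonzero vector, which is fixed by `u_1`, hence a multiple of `e₁`; so every
element of `Q` is `[[1, b], [0, d]]`, and `d = det` has `p`-power order in `kˣ`, i.e. `d = 1`.
-/
import Fermat.Agent.TW.G.Plan

set_option autoImplicit false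
set_option linter.style.haveILetI false

namespace Fermat.Agent.TW.G.Sel

open Matrix

variable {k : Type} [Field k]

theorem gidx_uU_mul (x y : k) : uU x * uU y = uU (x + y) := by
  ext i j
  fin_cases i <;> fin_cases j <;> simp [uU, Matrix.mul_apply, Fin.sum_univ_two, add_comm]

theorem gidx_uU_zero : uU (0 : k) = 1 := by
  ext i j
  fin_cases i <;> fin_cases j <;> simp [uU]

theorem gidx_uU_injective : Function.Injective (uU : k → M2 k) := by
  intro x y h
  have := congrFun (congrFun h 0) 1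
  simpa [uU] using this

/-- The inverse of an upper unipotent element. -/
theorem gidx_inv_val (g : GL (Fin 2) k) (x : k) (h : g.1 = uU x) : (g⁻¹).1 = uU (-x) := by
  have h1 : (g⁻¹).1 * g.1 = 1 := by
    rw [← Units.val_mul, inv_mul_cancel, Units.val_one]
  calc (g⁻¹).1 = (g⁻¹).1 * (uU x * uU (-x)) := by
        rw [gidx_uU_mul, add_neg_cancel, gidx_uU_zero, mul_one]
    _ = ((g⁻¹).1 * g.1) * uU (-x) := by rw [h, mul_assoc]
    _ = uU (-x) := by rw [h1, one_mul]

/-- The upper unipotent elements of `G`. -/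
def gidxU (G : Subgroup (GL (Fin 2) k)) : Subgroup (GL (Fin 2) k) where
  carrier := {g | g ∈ G ∧ ∃ x, g.1 = uU x}
  mul_mem' := by
    rintro g h ⟨hg, x, hx⟩ ⟨hh, y, hy⟩
    exact ⟨G.mul_mem hg hh, x + y, by rw [Units.val_mul, hx, hy, gidx_uU_mul]⟩
  one_mem' := ⟨G.one_mem, 0, by rw [Units.val_one, gidx_uU_zero]⟩
  inv_mem' := by
    rintro g ⟨hg, x, hx⟩
    exact ⟨G.inv_mem hg, -x, gidx_inv_val g x hx⟩

theorem gidx_mem_U (G : Subgroup (GL (Fin 2) k)) (g : GL (Fin 2) k) :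
    g ∈ gidxU G ↔ g ∈ G ∧ ∃ x, g.1 = uU x := Iff.rfl

theorem gidxU_le (G : Subgroup (GL (Fin 2) k)) : gidxU G ≤ G := fun _ h => h.1

/-- powers of an upper unipotent element -/
theorem gidx_pow_val (g : GL (Fin 2) k) (x : k) (h : g.1 = uU x) (n : ℕ) :
    (g ^ n).1 = uU (n * x) := by
  induction n with
  | zero => rw [pow_zero, Units.val_one, Nat.cast_zero, zero_mul, gidx_uU_zero]
  | succ n ih =>
    rw [pow_succ, Units.val_mul, ih, h, gidx_uU_mul]
    congr 1
    push_cast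
    ring

/-- a matrix fixing `e₁` with determinant `1` is upper unipotent -/
theorem gidx_eq_uU_of_fix (g : M2 k) (h00 : g 0 0 = 1) (h10 : g 1 0 = 0) (hdet : g.det = 1) :
    g = uU (g 0 1) := by
  have h11 : g 1 1 = 1 := by
    rw [Matrix.det_fin_two, h00, h10, mul_zero, sub_zero, one_mul] at hdet
    exact hdet
  ext i j
  fin_cases i <;> fin_cases j <;> simp [uU, h00, h10, h11]

theorem gidx_mulVec (M : M2 k) (b : Fin 2 → k) (i : Fin 2) :
    (M *ᵥ b) i = M i 0 * b 0 + M i 1 * b 1 := by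
  simp [Matrix.mulVec, dotProduct, Fin.sum_univ_two]

/-- in characteristic `p`, an element of `p`-power order in `kˣ` is `1` -/
theorem gidx_eq_one_of_pow (p : ℕ) [Fact p.Prime] [CharP k p] (d : k) (n : ℕ)
    (h : d ^ p ^ n = 1) : d = 1 := by
  have h1 : (d - 1) ^ p ^ n = 0 := by
    rw [sub_pow_char_pow, one_pow, h, sub_self]
  exact sub_eq_zero.mp (pow_eq_zero_iff (pow_ne_zero n (Fact.out : p.Prime).ne_zero) |>.mp h1)

/-- A `p`-subgroup of `GL₂(k)` containing `u_1` consists of upper unipotent matrices. -/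
theorem gidx_pgroup_unipotent (p : ℕ) [Fact p.Prime] [Finite k] [CharP k p]
    (Q : Subgroup (GL (Fin 2) k)) (hQ : IsPGroup p Q) (g₁ : GL (Fin 2) k) (hg₁Q : g₁ ∈ Q)
    (hg₁ : g₁.1 = uU 1) (g : GL (Fin 2) k) (hg : g ∈ Q) : ∃ x, g.1 = uU x := by
  classical
  letI : MulAction Q (Fin 2 → k) :=
    { smul := fun h v => (h.1.1 : M2 k) *ᵥ v
      one_smul := fun v => by
        show ((1 : Q).1.1 : M2 k) *ᵥ v = v
        simp
      mul_smul := fun a b v => by
        show ((a * b).1.1 : M2 k) *ᵥ v = (a.1.1 : M2 k) *ᵥ ((b.1.1 : M2 k) *ᵥ v)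
        rw [Matrix.mulVec_mulVec]
        rfl }
  have hsmul : ∀ (h : Q) (v : Fin 2 → k), h • v = (h.1.1 : M2 k) *ᵥ v := fun _ _ => rfl
  have hp : p.Prime := Fact.out
  have hcard : p ∣ Nat.card (Fin 2 → k) := by
    haveI := Fintype.ofFinite k
    obtain ⟨n, -, hn⟩ := FiniteField.card k p
    rw [Nat.card_eq_fintype_card, Fintype.card_fun, hn, Fintype.card_fin]
    exact dvd_pow (dvd_pow_self p n.ne_zero) (by norm_num)
  have h0 : (0 : Fin 2 → k) ∈ MulAction.fixedPoints Q (Fin 2 → k) := by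
    intro h
    rw [hsmul, Matrix.mulVec_zero]
  obtain ⟨b, hb, hb0⟩ := hQ.exists_fixed_point_of_prime_dvd_card_of_fixed_point
    (α := Fin 2 → k) hcard h0
  -- `b = (b₀, 0)`
  have hb1 : b 1 = 0 := by
    have h1 := hb ⟨g₁, hg₁Q⟩
    rw [hsmul] at h1
    have h2 := congrFun h1 0
    rw [gidx_mulVec] at h2
    have e00 : (g₁.1 : M2 k) 0 0 = 1 := by rw [hg₁]; simp [uU]
    have e01 : (g₁.1 : M2 k) 0 1 = 1 := by rw [hg₁]; simp [uU]
    change (g₁.1 : M2 k) 0 0 * b 0 + (g₁.1 : M2 k) 0 1 * b 1 = b 0 at h2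
    rw [e00, e01, one_mul, one_mul] at h2
    exact left_eq_add.mp h2.symm
  have hb00 : b 0 ≠ 0 := by
    intro h
    apply hb0
    funext i
    fin_cases i
    · exact h.symm
    · exact hb1.symm
  -- every `g ∈ Q` fixes `e₁`
  have h1 := hb ⟨g, hg⟩
  rw [hsmul] at h1
  have h00 : g.1 0 0 = 1 := by
    have h2 := congrFun h1 0
    rw [gidx_mulVec] at h2
    change g.1 0 0 * b 0 + g.1 0 1 * b 1 = b 0 at h2
    rw [hb1, mul_zero, add_zero] at h2
    exact mul_right_cancel₀ hb00 (by rw [h2, one_mul])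
  have h10 : g.1 1 0 = 0 := by
    have h2 := congrFun h1 1
    rw [gidx_mulVec] at h2
    change g.1 1 0 * b 0 + g.1 1 1 * b 1 = b 1 at h2
    rw [hb1, mul_zero, add_zero] at h2
    rcases mul_eq_zero.mp h2 with h3 | h3
    · exact h3
    · exact absurd h3 hb00
  -- determinant
  obtain ⟨n, hn⟩ := hQ ⟨g, hg⟩
  have hn' : g ^ p ^ n = 1 := by
    have := congrArg (fun x : Q => (x : GL (Fin 2) k)) hn
    simpa using this
  have hdet : g.1.det = 1 := by
    apply gidx_eq_one_of_pow p _ n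
    rw [← Matrix.det_pow, ← Units.val_pow_eq_pow_val, hn', Units.val_one, Matrix.det_one]
  exact ⟨g.1 0 1, gidx_eq_uU_of_fix g.1 h00 h10 hdet⟩

/-- **P6' G-idx**. -/
theorem stmtIdx : StmtIdx := by
  intro p _ k _ _ _ G hex
  obtain ⟨g₁, hg₁G, hg₁⟩ := hex
  classical
  refine ⟨gidxU G, gidxU_le G, fun g => Iff.rfl, ?_⟩
  haveI : Finite (GL (Fin 2) k) := Finite.of_injective (fun g : GL (Fin 2) k => g.1) Units.val_injective
  -- `U` is a `p`-group
  have hUp : IsPGroup p ((gidxU G).subgroupOf G) := by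
    rintro ⟨⟨g, hgG⟩, hgU⟩
    obtain ⟨x, hx⟩ := ((Subgroup.mem_subgroupOf).mp hgU).2
    refine ⟨1, ?_⟩
    rw [pow_one]
    apply Subtype.ext
    apply Subtype.ext
    apply Units.ext
    show (g ^ p).1 = 1
    rw [gidx_pow_val g x hx, CharP.cast_eq_zero, zero_mul, gidx_uU_zero]
  obtain ⟨Q, hQ⟩ := hUp.exists_le_sylow
  have hQle : (Q : Subgroup G) ≤ (gidxU G).subgroupOf G := by
    intro g hg
    rw [Subgroup.mem_subgroupOf]
    refine ⟨g.2, ?_⟩
    -- the image of `Q` in `GL₂(k)`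
    have hQp : IsPGroup p ((Q : Subgroup G).map G.subtype) :=
      Q.isPGroup'.map G.subtype
    have hg₁Q : g₁ ∈ (Q : Subgroup G).map G.subtype := by
      refine ⟨⟨g₁, hg₁G⟩, hQ ?_, rfl⟩
      rw [Subgroup.mem_subgroupOf]
      exact ⟨hg₁G, 1, hg₁⟩
    exact gidx_pgroup_unipotent p _ hQp g₁ hg₁Q hg₁ g.1 ⟨g, hg, rfl⟩
  have heq : (gidxU G).subgroupOf G = Q := le_antisymm hQ hQle
  rw [heq]
  exact Q.not_dvd_index

end Fermat.Agent.TW.G.Sel
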