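import Fermat.Agent.TW.G.Syl
import Fermat.Agent.TW.G.BorelBasic

/-!
# TW-G / P5 G-norm (helper41): conjugation invariance and normalisation

`stmtNorm : StmtNorm`, i.e. `StmtSyl → StmtFinNorm → StmtFin`.
If `p ∤ |G|`, apply `StmtSyl` with `H = ⊥`.  Otherwise `G` has an element `g₀` of order `p`
(Cauchy); `g₀ − 1` is nilpotent, so `g₀ P = P u_1` for an explicit invertible `P`; transport
`G` and `ψ` by `P` (`act (h g h⁻¹) (h m h⁻¹) = h (act g m) h⁻¹`) and apply `StmtFinNorm`.
Names `gnorm_*`.  Mathlib only.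
-/

set_option autoImplicit false

namespace Fermat.Agent.TW.G.Sel

open Matrix Polynomial

variable {k : Type} [Field k]

theorem gnorm_adj_unit (h : GL (Fin 2) k) : h.1.adjugate = h.1.det • h⁻¹.1 := by
  have h1 : h.1.adjugate * h.1 = h.1.det • (1 : M2 k) := Matrix.adjugate_mul h.1
  calc h.1.adjugate = h.1.adjugate * (h.1 * h⁻¹.1) := by
        rw [← Units.val_mul, mul_inv_cancel, Units.val_one, mul_one]
    _ = (h.1.adjugate * h.1) * h⁻¹.1 := by rw [mul_assoc]
    _ = h.1.det • h⁻¹.1 := by rw [h1, Matrix.smul_mul, one_mul]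

theorem gnorm_det_inv_mul (h : GL (Fin 2) k) : h⁻¹.1.det * h.1.det = 1 := by
  rw [← Matrix.det_mul, ← Units.val_mul, inv_mul_cancel, Units.val_one, Matrix.det_one]

/-- the twisted adjoint action commutes with (untwisted) conjugation -/
theorem gnorm_act_conj (h : GL (Fin 2) k) (g m : M2 k) :
    act (h.1 * g * h⁻¹.1) (h.1 * m * h⁻¹.1) = h.1 * act g m * h⁻¹.1 := by
  have e1 : h⁻¹.1 * h.1 = 1 := by rw [← Units.val_mul, inv_mul_cancel, Units.val_one]
  have e2 : (h.1 * g * h⁻¹.1).adjugate = h.1 * g.adjugate * h⁻¹.1 := by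
    rw [Matrix.adjugate_mul_distrib, Matrix.adjugate_mul_distrib, gnorm_adj_unit h,
      gnorm_adj_unit h⁻¹, inv_inv]
    simp only [Matrix.smul_mul, Matrix.mul_smul, smul_smul]
    have e3 : h.1.det * h⁻¹.1.det = 1 := by rw [mul_comm]; exact gnorm_det_inv_mul h
    rw [e3, one_smul, mul_assoc]
  unfold act
  rw [e2]
  calc h.1 * g * h⁻¹.1 * (h.1 * m * h⁻¹.1) * (h.1 * g.adjugate * h⁻¹.1)
      = h.1 * g * (h⁻¹.1 * h.1) * m * (h⁻¹.1 * h.1) * g.adjugate * h⁻¹.1 := by
        simp only [mul_assoc]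
    _ = h.1 * (g * m * g.adjugate) * h⁻¹.1 := by
        rw [e1]; simp only [mul_one, mul_assoc]

/-- an element of order `p` of `GL₂(k)` is conjugate to `u_1` -/
theorem gnorm_conj_uU (p : ℕ) [Fact p.Prime] [CharP k p] (g : GL (Fin 2) k)
    (hg1 : g ≠ 1) (hgp : g ^ p = 1) :
    ∃ P : GL (Fin 2) k, g * P = P * gbbU 1 := by
  -- `N = g − 1` is nilpotent
  have hgp' : g.1 ^ p = 1 := by
    rw [← Units.val_pow_eq_pow_val, hgp, Units.val_one]
  have hN : (g.1 - 1) ^ p = 0 := by
    rw [sub_pow_char_of_commute p (Commute.one_right g.1), hgp', one_pow, sub_self]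
  have hnil : IsNilpotent (g.1 - 1) := ⟨p, hN⟩
  have htr : (g.1 - 1).trace = 0 :=
    (Matrix.isNilpotent_trace_of_isNilpotent hnil).eq_zero
  have hdet : (g.1 - 1).det = 0 := by
    have h0 : (g.1 - 1).det ^ p = 0 := by
      rw [← Matrix.det_pow, hN]
      simp
    exact pow_eq_zero_iff (Fact.out : p.Prime).ne_zero |>.mp h0
  have hne : g.1 - 1 ≠ 0 := by
    intro h
    apply hg1
    apply Units.ext
    rw [Units.val_one]
    exact sub_eq_zero.mp h
  -- coordinates
  obtain ⟨a, b, c, d, hgabcd⟩ : ∃ a b c d : k, g.1 = !![1 + a, b; c, 1 + d] := by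
    refine ⟨g.1 0 0 - 1, g.1 0 1, g.1 1 0, g.1 1 1 - 1, ?_⟩
    ext i j
    fin_cases i <;> fin_cases j <;> simp
  have hN' : g.1 - 1 = !![a, b; c, d] := by
    rw [hgabcd]
    ext i j
    fin_cases i <;> fin_cases j <;> simp
  rw [hN'] at htr hdet hne
  rw [Matrix.trace_fin_two] at htr
  rw [Matrix.det_fin_two] at hdet
  simp at htr hdet
  by_cases hc : c = 0
  · -- `c = 0`, hence `a = d = 0`, `b ≠ 0`
    have ha : a = 0 := by
      have : a * a = 0 := by
        have hd : d = -a := by linear_combination htr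
        rw [hc, hd] at hdet
        linear_combination -hdet
      exact mul_self_eq_zero.mp this
    have hd : d = 0 := by linear_combination htr - ha
    have hb : b ≠ 0 := by
      intro hb
      apply hne
      rw [ha, hb, hc, hd]
      ext i j
      fin_cases i <;> fin_cases j <;> simp
    have hP : (!![b, 0; 0, 1] : M2 k).det ≠ 0 := by
      rw [Matrix.det_fin_two]; simpa using hb
    refine ⟨Matrix.GeneralLinearGroup.mkOfDetNeZero _ hP, ?_⟩
    apply Units.ext
    rw [Units.val_mul, Units.val_mul, gbbU_val, hgabcd, ha, hc, hd]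
    show !![1 + 0, b; 0, 1 + 0] * (!![b, 0; 0, 1] : M2 k) = !![b, 0; 0, 1] * uU 1
    ext i j
    fin_cases i <;> fin_cases j <;> simp [uU, Matrix.mul_apply, Fin.sum_univ_two]
  · have hP : (!![a, 1; c, 0] : M2 k).det ≠ 0 := by
      rw [Matrix.det_fin_two]; simpa using hc
    refine ⟨Matrix.GeneralLinearGroup.mkOfDetNeZero _ hP, ?_⟩
    apply Units.ext
    rw [Units.val_mul, Units.val_mul, gbbU_val, hgabcd]
    show !![1 + a, b; c, 1 + d] * (!![a, 1; c, 0] : M2 k) = !![a, 1; c, 0] * uU 1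
    have hd : d = -a := by linear_combination htr
    have hbc : b * c = -(a * a) := by
      rw [hd] at hdet
      linear_combination -hdet
    ext i j
    fin_cases i <;> fin_cases j <;> simp [uU, Matrix.mul_apply, Fin.sum_univ_two]
    · linear_combination hbc
    · ring
    · linear_combination c * htr

/-- transport of structure along conjugation by `P` -/
theorem gnorm_transport (p : ℕ) [Fact p.Prime] [Finite k] [CharP k p]
    (hFN : StmtFinNorm) (G : Subgroup (GL (Fin 2) k)) (hG : FinHyp p G)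
    (P : GL (Fin 2) k) (g₀ : GL (Fin 2) k) (hg₀ : g₀ ∈ G) (hP : g₀ * P = P * gbbU 1)
    (ψ : GL (Fin 2) k → M2 k) (hψ : IsCocOn G ψ) : IsCobOn G ψ := by
  -- the conjugate group `G' = P⁻¹ G P`
  set G' : Subgroup (GL (Fin 2) k) := G.comap (MulAut.conj P).toMonoidHom with hG'
  have hmem : ∀ g', g' ∈ G' ↔ P * g' * P⁻¹ ∈ G := by
    intro g'
    rw [hG', Subgroup.mem_comap]
    rfl
  have hmem' : ∀ g ∈ G, P⁻¹ * g * P ∈ G' := by
    intro g hg
    rw [hmem]
    have : P * (P⁻¹ * g * P) * P⁻¹ = g := by group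
    rwa [this]
  have hval : ∀ g' : GL (Fin 2) k, (P * g' * P⁻¹).1 = P.1 * g'.1 * P⁻¹.1 := by
    intro g'
    rw [Units.val_mul, Units.val_mul]
  have hval' : ∀ g : GL (Fin 2) k, (P⁻¹ * g * P).1 = P⁻¹.1 * g.1 * P.1 := by
    intro g
    rw [Units.val_mul, Units.val_mul]
  have ePP : P.1 * P⁻¹.1 = 1 := by rw [← Units.val_mul, mul_inv_cancel, Units.val_one]
  have ePP' : P⁻¹.1 * P.1 = 1 := by rw [← Units.val_mul, inv_mul_cancel, Units.val_one]
  -- the transported cocycle
  set ψ' : GL (Fin 2) k → M2 k := fun g' => P⁻¹.1 * ψ (P * g' * P⁻¹) * P.1 with hψ'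
  have hconj' : ∀ X Y : M2 k,
      act (P⁻¹.1 * X * P.1) (P⁻¹.1 * Y * P.1) = P⁻¹.1 * act X Y * P.1 := by
    intro X Y
    have := gnorm_act_conj P⁻¹ X Y
    rwa [inv_inv] at this
  have hcoc' : IsCocOn G' ψ' := by
    refine ⟨fun g' hg' => ?_, fun g₁ hg₁ g₂ hg₂ => ?_⟩
    · rw [hψ', Matrix.trace_mul_comm, ← mul_assoc, ePP, one_mul]
      exact hψ.1 _ ((hmem g').mp hg')
    · have h1 := hψ.2 _ ((hmem g₁).mp hg₁) _ ((hmem g₂).mp hg₂)
      have h2 : P * (g₁ * g₂) * P⁻¹ = (P * g₁ * P⁻¹) * (P * g₂ * P⁻¹) := by group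
      simp only [hψ']
      rw [h2, h1, mul_add, add_mul, ← hconj']
      congr 2
      rw [hval, ← mul_assoc, ← mul_assoc, ePP', one_mul, mul_assoc, ePP', mul_one]
  -- the hypotheses for `G'`
  have hdet : ∀ g' : GL (Fin 2) k, (P * g' * P⁻¹).1.det = g'.1.det := by
    intro g'
    rw [hval, Matrix.det_mul, Matrix.det_mul, mul_comm, ← mul_assoc, gnorm_det_inv_mul,
      one_mul]
  have hFin' : FinHyp p G' := by
    refine ⟨hG.odd, ?_, ?_, ?_, ?_⟩
    · intro g' hg'
      obtain ⟨a, ha⟩ := hG.det_int _ ((hmem g').mp hg')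
      exact ⟨a, by rw [← ha, hdet]⟩
    · intro a ha
      obtain ⟨g, hg, hga⟩ := hG.det_surj a ha
      refine ⟨P⁻¹ * g * P, hmem' g hg, ?_⟩
      have e : P * (P⁻¹ * g * P) * P⁻¹ = g := by group
      have h3 := hdet (P⁻¹ * g * P)
      rw [e] at h3
      rw [← h3, hga]
    · intro g' hg'
      obtain ⟨α, β, hαβ⟩ := hG.split _ ((hmem g').mp hg')
      refine ⟨α, β, ?_⟩
      rw [← hαβ, hval, Matrix.coe_units_inv, Matrix.charpoly_units_conj]
    · intro v hv hall
      apply hG.irr ((P.1.map (algebraMap k (AlgebraicClosure k))) *ᵥ v)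
      · intro h0
        apply hv
        have := congrArg (fun w => (P⁻¹.1.map (algebraMap k (AlgebraicClosure k))) *ᵥ w) h0
        simp only [Matrix.mulVec_mulVec, Matrix.mulVec_zero] at this
        rw [← Matrix.map_mul, ePP', Matrix.map_one _ (map_zero _) (map_one _),
          Matrix.one_mulVec] at this
        exact this
      · intro g hg
        obtain ⟨c, hc⟩ := hall _ (hmem' g hg)
        refine ⟨c, ?_⟩
        rw [Matrix.mulVec_mulVec, ← Matrix.map_mul]
        have e : g.1 * P.1 = P.1 * (P⁻¹ * g * P).1 := by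
          rw [hval', ← mul_assoc, ← mul_assoc, ePP, one_mul]
        rw [e, Matrix.map_mul, ← Matrix.mulVec_mulVec, hc, Matrix.mulVec_smul]
  have hu : ∃ g' ∈ G', g'.1 = uU 1 := by
    refine ⟨gbbU 1, ?_, rfl⟩
    rw [hmem, ← hP]
    have : g₀ * P * P⁻¹ = g₀ := by group
    rwa [this]
  obtain ⟨m', hm', hcob'⟩ := hFN p k G' hFin' hu ψ' hcoc'
  refine ⟨P.1 * m' * P⁻¹.1, ?_, fun g hg => ?_⟩
  · rw [Matrix.trace_mul_comm, ← mul_assoc, ePP', one_mul, hm']
  · have h1 := hcob' _ (hmem' g hg)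
    have h2 : P * (P⁻¹ * g * P) * P⁻¹ = g := by group
    simp only [hψ'] at h1
    rw [h2] at h1
    have h3 : ψ g = P.1 * (P⁻¹.1 * ψ g * P.1) * P⁻¹.1 := by
      rw [← mul_assoc, ← mul_assoc, ePP, one_mul, mul_assoc, ePP, mul_one]
    rw [h3, h1, mul_sub, sub_mul, ← gnorm_act_conj, hval', ← mul_assoc, ← mul_assoc, ePP,
      one_mul, mul_assoc, ePP, mul_one]

/-- (P5, G-norm) conjugation invariance and normalisation. -/
theorem stmtNorm : StmtNorm := by
  intro hSyl hFN p _ k _ _ _ G hG ψ hψ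
  classical
  have hfin : Finite (GL (Fin 2) k) := inferInstance
  by_cases hdvd : p ∣ Nat.card G
  · -- Cauchy
    haveI : Fintype G := Fintype.ofFinite _
    rw [Nat.card_eq_fintype_card] at hdvd
    obtain ⟨x, hx⟩ := exists_prime_orderOf_dvd_card p hdvd
    have hp : p.Prime := Fact.out
    have hx1 : x.1 ≠ 1 := by
      intro h
      have : x = 1 := Subtype.ext h
      rw [this, orderOf_one] at hx
      exact hp.one_lt.ne hx
    have hxp : x.1 ^ p = 1 := by
      have := pow_orderOf_eq_one x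
      rw [hx] at this
      have h2 := congrArg Subtype.val this
      simpa using h2
    obtain ⟨P, hP⟩ := gnorm_conj_uU p x.1 hx1 hxp
    exact gnorm_transport p hFN G hG P x.1 x.2 hP ψ hψ
  · -- `p ∤ |G|`
    apply hSyl p k G ⊥ bot_le _ ψ hψ
    · refine ⟨0, by simp, fun g hg => ?_⟩
      rw [Subgroup.mem_bot] at hg
      rw [hg, gbb_psi_one hψ, gsyl_act_zero, sub_zero]
    · rw [Subgroup.bot_subgroupOf, Subgroup.index_bot]
      exact hdvd

end Fermat.Agent.TW.G.Sel
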