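import Fermat.Agent.TW.G.Sel
import Fermat.Agent.TW.G.Asm
import Fermat.Agent.TW.G.Syl
import Fermat.Agent.TW.G.Idx
import Fermat.Agent.TW.G.Frattini
import Fermat.Agent.TW.G.BorelU
import Fermat.Agent.TW.G.BorelT
import Fermat.Agent.TW.G.Norm
import Fermat.Agent.TW.G.Concl
import Fermat.Agent.TW.G.Dickson.Central
import Fermat.Agent.TW.G.Dickson.Normal
import Fermat.Agent.TW.G.Dickson.Index
import Fermat.Agent.TW.G.Dickson.BorelCard
import Fermat.Agent.TW.G.Dickson.SylowD
import Fermat.Agent.TW.G.Dickson.CentE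

/-!
# TW-G / G-sel (helper26): final assembly of the abstract statement `StmtGSel`
-/

set_option autoImplicit false

namespace Fermat.Agent.TW.G.Sel

open Fermat.Agent.TW.G.Dk

/-- Dickson, counting form, from the last two concrete pieces -/
theorem stmtDickson_of (hD2 : StmtDkD2) (hE : StmtDkE) : StmtDickson :=
  stmtDkF stmtDkA stmtDkB stmtDkB' stmtDkC stmtDkD1 hD2 hE

/-- `H¹(G, ad⁰(1)) = 0` -/
theorem stmtFin_of (hD2 : StmtDkD2) (hE : StmtDkE) : StmtFin :=
  stmtNorm stmtSyl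
    (stmtConcl stmtSyl stmtIdx stmtBorelU stmtBorelT stmtFrattini (stmtDickson_of hD2 hE))

/-- the abstract G-sel -/
theorem stmtGSel_of (hD2 : StmtDkD2) (hE : StmtDkE) : StmtGSel :=
  stmtAsm stmtAdIrr stmtFind (stmtFin_of hD2 hE)

/-- **Dickson's theorem, counting form** (P9), unconditional. -/
theorem stmtDickson : StmtDickson := stmtDickson_of stmtDkD2 stmtDkE

/-- **`H¹(G, ad⁰(1)) = 0`** for `G ⊆ GL₂(k)` absolutely irreducible, split, `det G = 𝔽_pˣ`. -/
theorem stmtFin : StmtFin := stmtFin_of stmtDkD2 stmtDkE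

/-- **G-sel**, abstract form, unconditional. -/
theorem stmtGSel : StmtGSel := stmtGSel_of stmtDkD2 stmtDkE

end Fermat.Agent.TW.G.Sel
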